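import Mathlib
import Fermat.Agent.Flat.RSpace

/-!
Places from order functions, restriction of places to subfields.
-/

set_option autoImplicit false
set_option linter.unusedSectionVars false

noncomputable section

namespace Fermat.Agent.MX

open AlgebraicCurve IsDedekindDomain IntermediateField WithZero Module Fermat.Agent.FunField
open Fermat.Agent.Flat

variable {K F F' : Type*} [Field K] [Field F] [Field F'] [Algebra K F] [Algebra K F']

/-- An order function. -/
structure OrdFn (K : Type*) {F : Type*} [Field K] [Field F] [Algebra K F] (w : F → ℤ) : Prop where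
  mul : ∀ f g : F, f ≠ 0 → g ≠ 0 → w (f * g) = w f + w g
  add : ∀ f g : F, f ≠ 0 → g ≠ 0 → f + g ≠ 0 → min (w f) (w g) ≤ w (f + g)
  const : ∀ a : K, a ≠ 0 → w (algebraMap K F a) = 0
  nt : ∃ f : F, f ≠ 0 ∧ w f ≠ 0

namespace OrdFn

variable {w : F → ℤ} (h : OrdFn K w)
include h

theorem one : w 1 = 0 := by
  have := h.const 1 one_ne_zero
  rwa [map_one] at this

theorem inv {f : F} (hf : f ≠ 0) : w f⁻¹ = - w f := by
  have h1 := h.mul f f⁻¹ hf (inv_ne_zero hf)
  rw [mul_inv_cancel₀ hf, h.one] at h1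
  omega

theorem pow {f : F} (hf : f ≠ 0) (n : ℕ) : w (f ^ n) = n * w f := by
  induction n with
  | zero => rw [pow_zero, h.one]; simp
  | succ n ih =>
    rw [pow_succ, h.mul _ _ (pow_ne_zero n hf) hf, ih]
    push_cast; ring

theorem zpow {f : F} (hf : f ≠ 0) (n : ℤ) : w (f ^ n) = n * w f := by
  cases n with
  | ofNat n => rw [Int.ofNat_eq_natCast, zpow_natCast, h.pow hf]
  | negSucc n =>
    rw [zpow_negSucc, h.inv (pow_ne_zero _ hf), h.pow hf, Int.negSucc_eq]
    push_cast; ring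

theorem neg {f : F} : w (-f) = w f := by
  by_cases hf : f = 0
  · rw [hf, neg_zero]
  have h1 := h.mul (-1) f (neg_ne_zero.mpr one_ne_zero) hf
  have h2 := h.mul (-1 : F) (-1) (neg_ne_zero.mpr one_ne_zero) (neg_ne_zero.mpr one_ne_zero)
  rw [neg_mul_neg, one_mul, h.one] at h2
  rw [neg_one_mul] at h1
  omega

/-- The valuation ring. -/
def ring : ValuationSubring F where
  carrier := {f | f = 0 ∨ 0 ≤ w f}
  mul_mem' := by
    rintro a b (ha | ha) (hb | hb)
    · left; rw [ha, zero_mul]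
    · left; rw [ha, zero_mul]
    · left; rw [hb, mul_zero]
    · by_cases ha0 : a = 0
      · left; rw [ha0, zero_mul]
      by_cases hb0 : b = 0
      · left; rw [hb0, mul_zero]
      right
      rw [h.mul a b ha0 hb0]; omega
  one_mem' := Or.inr h.one.ge
  add_mem' := by
    rintro a b ha hb
    by_cases ha0 : a = 0
    · rw [ha0, zero_add]; exact hb
    by_cases hb0 : b = 0
    · rw [hb0, add_zero]; exact ha
    by_cases hab : a + b = 0
    · exact Or.inl hab
    right
    have h1 := h.add a b ha0 hb0 hab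
    have h2 := ha.resolve_left ha0
    have h3 := hb.resolve_left hb0
    exact (le_min h2 h3).trans h1
  zero_mem' := Or.inl rfl
  neg_mem' := by
    rintro a (ha | ha)
    · left; rw [ha, neg_zero]
    · right; rw [h.neg]; exact ha
  mem_or_inv_mem' := by
    intro a
    by_cases ha0 : a = 0
    · left; exact Or.inl ha0
    rcases le_total 0 (w a) with h1 | h1
    · left; exact Or.inr h1
    · right; right; rw [h.inv ha0]; omega

theorem mem_ring {f : F} : f ∈ h.ring ↔ f = 0 ∨ 0 ≤ w f := Iff.rfl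

theorem isUnit_iff {f : h.ring} : IsUnit f ↔ (f : F) ≠ 0 ∧ w f = 0 := by
  constructor
  · rintro ⟨u, rfl⟩
    have h0 : ((u : h.ring) : F) ≠ 0 := by simp
    refine ⟨h0, ?_⟩
    have h1 := ((u : h.ring).2).resolve_left h0
    have h0' : ((((u⁻¹ : (h.ring)ˣ)) : h.ring) : F) ≠ 0 := by simp
    have h2 := ((((u⁻¹ : (h.ring)ˣ)) : h.ring).2).resolve_left h0'
    have h3 : ((u : h.ring) : F) * (((u⁻¹ : (h.ring)ˣ)) : h.ring) = 1 :=
      congrArg Subtype.val u.mul_inv
    have h4 := h.mul _ _ h0 h0'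
    rw [h3, h.one] at h4
    omega
  · rintro ⟨h0, h1⟩
    refine IsUnit.of_mul_eq_one ⟨(f : F)⁻¹, Or.inr (by rw [h.inv h0, h1]; simp)⟩ ?_
    exact Subtype.ext (mul_inv_cancel₀ h0)

/-- **The place attached to an order function.** -/
theorem exists_place : ∃ (v : Place K F) (e : ℕ), 1 ≤ e ∧ v.toValuationSubring = h.ring ∧
    ∀ f : F, f ≠ 0 → w f = e * v.ord f := by
  classical
  have hex : ∃ n : ℕ, 0 < n ∧ ∃ f : F, f ≠ 0 ∧ w f = n := by
    obtain ⟨f, hf, hne⟩ := h.nt
    rcases lt_or_gt_of_ne hne with h1 | h1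
    · refine ⟨(-w f).toNat, by omega, f⁻¹, inv_ne_zero hf, ?_⟩
      rw [h.inv hf]; omega
    · exact ⟨(w f).toNat, by omega, f, hf, by omega⟩
  set e := Nat.find hex with he
  obtain ⟨he0, π, hπ, hwπ⟩ := Nat.find_spec hex
  have hdvd : ∀ f : F, f ≠ 0 → ∃ n : ℤ, w f = e * n := by
    intro f hf
    have he' : (0 : ℤ) < e := by exact_mod_cast he0
    refine ⟨w f / e, ?_⟩
    have h1 : w (f * (π ^ (w f / e))⁻¹) = w f % e := by
      rw [h.mul _ _ hf (inv_ne_zero (zpow_ne_zero _ hπ)), h.inv (zpow_ne_zero _ hπ), h.zpow hπ,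
        hwπ, ← he, Int.emod_def]
      ring
    have h2 := Int.emod_nonneg (w f) he'.ne'
    have h3 := Int.emod_lt_of_pos (w f) he'
    by_contra hne
    have h4 : 0 < w f % e := by
      rcases h2.lt_or_eq with h5 | h5
      · exact h5
      · exfalso
        apply hne
        have := Int.mul_ediv_add_emod (w f) e
        rw [← h5, add_zero] at this
        exact this.symm
    refine Nat.find_min hex (m := (w f % e).toNat) ?_ ⟨by omega, f * (π ^ (w f / e))⁻¹,
      mul_ne_zero hf (inv_ne_zero (zpow_ne_zero _ hπ)), by rw [h1]; omega⟩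
    change (w f % e).toNat < e
    omega
  have hπr : π ∈ h.ring := Or.inr (by rw [hwπ]; exact Int.natCast_nonneg _)
  have he' : (0 : ℤ) < e := by exact_mod_cast he0
  have hirr : Irreducible (⟨π, hπr⟩ : h.ring) := by
    constructor
    · rw [h.isUnit_iff]
      rintro ⟨-, h1⟩
      change w π = 0 at h1
      rw [hwπ, ← he] at h1
      omega
    · intro a b hab
      have hab' : π = (a : F) * b := congrArg Subtype.val hab
      have ha0 : (a : F) ≠ 0 := by
        intro h0; rw [h0, zero_mul] at hab'; exact hπ hab'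
      have hb0 : (b : F) ≠ 0 := by
        intro h0; rw [h0, mul_zero] at hab'; exact hπ hab'
      have h1 := h.mul _ _ ha0 hb0
      rw [← hab', hwπ, ← he] at h1
      obtain ⟨n, hn⟩ := hdvd _ ha0
      obtain ⟨m, hm⟩ := hdvd _ hb0
      have h2 := a.2.resolve_left ha0
      have h3 := b.2.resolve_left hb0
      rw [hn] at h2 h1
      rw [hm] at h3 h1
      have h4 : 0 ≤ n := by by_contra hc; nlinarith
      have h5 : 0 ≤ m := by by_contra hc; nlinarith
      have h6 : n + m = 1 := by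
        have : (e : ℤ) * (n + m) = e * 1 := by rw [mul_add, ← h1, mul_one]
        exact mul_left_cancel₀ he'.ne' this
      rw [h.isUnit_iff, h.isUnit_iff, hn, hm]
      rcases (show n = 0 ∨ m = 0 by omega) with h7 | h7
      · left; exact ⟨ha0, by rw [h7, mul_zero]⟩
      · right; exact ⟨hb0, by rw [h7, mul_zero]⟩
  have hdvr : IsDiscreteValuationRing h.ring := by
    apply IsDiscreteValuationRing.ofHasUnitMulPowIrreducibleFactorization
    refine ⟨⟨π, hπr⟩, hirr, fun {x} hx => ?_⟩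
    have hx0 : (x : F) ≠ 0 := fun h0 => hx (Subtype.ext h0)
    obtain ⟨n, hn⟩ := hdvd _ hx0
    have h2 := x.2.resolve_left hx0
    rw [hn] at h2
    have h4 : 0 ≤ n := by by_contra hc; nlinarith
    obtain ⟨m, rfl⟩ := Int.eq_ofNat_of_zero_le h4
    have h5 : w ((x : F) * (π ^ m)⁻¹) = 0 := by
      rw [h.mul _ _ hx0 (inv_ne_zero (pow_ne_zero _ hπ)), h.inv (pow_ne_zero _ hπ), h.pow hπ, hwπ,
        hn, ← he]
      ring
    have h6 : IsUnit (⟨(x : F) * (π ^ m)⁻¹, Or.inr h5.ge⟩ : h.ring) := by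
      rw [h.isUnit_iff]
      exact ⟨mul_ne_zero hx0 (inv_ne_zero (pow_ne_zero _ hπ)), h5⟩
    obtain ⟨u, hu⟩ := h6
    refine ⟨m, u, ?_⟩
    rw [hu]
    apply Subtype.ext
    change π ^ m * ((x : F) * (π ^ m)⁻¹) = x
    rw [mul_comm, mul_assoc, inv_mul_cancel₀ (pow_ne_zero _ hπ), mul_one]
  let v : Place K F :=
    { toValuationSubring := h.ring
      algebraMap_mem' := fun a => by
        by_cases ha : a = 0
        · left; rw [ha, map_zero]
        · right; rw [h.const a ha]
      ne_top' := by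
        intro htop
        have h1 : π⁻¹ ∈ h.ring := by rw [htop]; trivial
        rcases h1 with h1 | h1
        · exact inv_ne_zero hπ h1
        · rw [h.inv hπ, hwπ, ← he] at h1
          omega
      isPrincipalIdealRing' := inferInstance }
  have hvπ : v.ord π = 1 := v.ord_coe_irreducible (π := (⟨π, hπr⟩ : h.ring)) hirr
  refine ⟨v, e, he0, rfl, fun f hf => ?_⟩
  obtain ⟨n, hn⟩ := hdvd f hf
  have h5 : w (f * (π ^ n)⁻¹) = 0 := by
    rw [h.mul _ _ hf (inv_ne_zero (zpow_ne_zero _ hπ)), h.inv (zpow_ne_zero _ hπ), h.zpow hπ, hwπ,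
      hn, ← he]
    ring
  have h6 : IsUnit (⟨f * (π ^ n)⁻¹, Or.inr h5.ge⟩ : h.ring) := by
    rw [h.isUnit_iff]
    exact ⟨mul_ne_zero hf (inv_ne_zero (zpow_ne_zero _ hπ)), h5⟩
  obtain ⟨u, hu⟩ := h6
  have h7 : v.ord (f * (π ^ n)⁻¹) = 0 := by
    have h8 := v.ord_coe_unit u
    rw [hu] at h8
    exact h8
  rw [v.ord_mul hf (inv_ne_zero (zpow_ne_zero _ hπ)), v.ord_inv, v.ord_zpow, hvπ] at h7
  rw [hn]
  congr 1
  omega

end OrdFn

/-- `v'` lies above `v`. -/
def Abv (φ : F →+* F') (v' : Place K F') (v : Place K F) : Prop :=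
  ∃ e : ℕ, 1 ≤ e ∧ ∀ f : F, v'.ord (φ f) = e * v.ord f

theorem Abv.nonneg_iff {φ : F →+* F'} {v' : Place K F'} {v : Place K F} (h : Abv φ v' v) {f : F} :
    0 ≤ v'.ord (φ f) ↔ 0 ≤ v.ord f := by
  obtain ⟨e, he, hf⟩ := h
  rw [hf]
  have he' : (0 : ℤ) < e := by exact_mod_cast he
  constructor
  · intro h1; by_contra hc; nlinarith
  · intro h1; positivity

theorem Abv.pos_iff {φ : F →+* F'} {v' : Place K F'} {v : Place K F} (h : Abv φ v' v) {f : F} :
    0 < v'.ord (φ f) ↔ 0 < v.ord f := by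
  obtain ⟨e, he, hf⟩ := h
  rw [hf]
  have he' : (0 : ℤ) < e := by exact_mod_cast he
  constructor
  · intro h1; by_contra hc; nlinarith
  · intro h1; positivity

theorem Abv.unique {φ : F →+* F'} {v' : Place K F'} {v₁ v₂ : Place K F} (h₁ : Abv φ v' v₁)
    (h₂ : Abv φ v' v₂) : v₁ = v₂ := by
  apply Place.ext
  ext f
  rw [mem_iff_ord_nonneg, mem_iff_ord_nonneg, ← h₁.nonneg_iff, ← h₂.nonneg_iff]

theorem Abv.evp_eq {φ : F →+* F'} (hφ : ∀ a : K, φ (algebraMap K F a) = algebraMap K F' a)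
    {v' : Place K F'} {v : Place K F} (h : Abv φ v' v) (hv : Rational v) {f : F}
    (hf : 0 ≤ v.ord f) : evp v' (φ f) = evp v f := by
  apply evp_unique
  have h1 := evp_spec hv (mem_of_ord_nonneg v hf)
  rw [← hφ, ← map_sub]
  rw [adicValuation_lt_one_iff] at h1 ⊢
  rcases h1 with h1 | h1
  · left; rw [h1, map_zero]
  · right; exact h.pos_iff.mpr h1

theorem Abv.mem_iff {φ : F →+* F'} {v' : Place K F'} {v : Place K F} (h : Abv φ v' v) {f : F} :
    φ f ∈ v'.toValuationSubring ↔ f ∈ v.toValuationSubring := by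
  rw [mem_iff_ord_nonneg, mem_iff_ord_nonneg, h.nonneg_iff]

/-- Every place restricts to a place, if it is not trivial. -/
theorem exists_abv {φ : F →+* F'} (hφ : ∀ a : K, φ (algebraMap K F a) = algebraMap K F' a)
    (v' : Place K F') (hnt : ∃ f : F, v'.ord (φ f) ≠ 0) : ∃ v : Place K F, Abv φ v' v := by
  have hφ0 : ∀ f : F, f ≠ 0 → φ f ≠ 0 := fun f hf => (_root_.map_ne_zero φ).mpr hf
  have h : OrdFn K (fun f : F => v'.ord (φ f)) :=
    { mul := fun f g hf hg => by rw [map_mul, v'.ord_mul (hφ0 f hf) (hφ0 g hg)]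
      add := fun f g hf hg hfg => by
        have h1 := hφ0 _ hfg
        rw [map_add] at h1 ⊢
        rcases ord_add_le v' h1 with h2 | h2 | h2
        · exact h2
        · exact absurd h2 (hφ0 f hf)
        · exact absurd h2 (hφ0 g hg)
      const := fun a _ => by rw [hφ, ord_algebraMap]
      nt := by
        obtain ⟨f, hf⟩ := hnt
        refine ⟨f, ?_, hf⟩
        rintro rfl
        rw [map_zero, v'.ord_zero] at hf
        exact hf rfl }
  obtain ⟨v, e, he, -, hv⟩ := h.exists_place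
  refine ⟨v, e, he, fun f => ?_⟩
  by_cases hf : f = 0
  · rw [hf, map_zero, v'.ord_zero, v.ord_zero, mul_zero]
  · exact hv f hf

/-- Above, from valuation rings. -/
theorem abv_of_iff {φ : F →+* F'} (hφ : ∀ a : K, φ (algebraMap K F a) = algebraMap K F' a)
    {v' : Place K F'} {v : Place K F}
    (h : ∀ f : F, φ f ∈ v'.toValuationSubring ↔ f ∈ v.toValuationSubring) : Abv φ v' v := by
  have hnt : ∃ f : F, v'.ord (φ f) ≠ 0 := by
    by_contra hcon
    push Not at hcon
    apply v.ne_top'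
    rw [eq_top_iff]
    intro f _
    rw [← h, mem_iff_ord_nonneg, hcon]
  obtain ⟨w, hw⟩ := exists_abv hφ v' hnt
  have : w = v := by
    apply Place.ext
    ext f
    rw [← hw.mem_iff, h]
  rwa [← this]

end Fermat.Agent.MX
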