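import Fermat.Agent.MX.B7

/-!
The rational point of `X₀(N)` attached to a stable line, near the cusps.
-/

set_option autoImplicit false
set_option linter.unusedSectionVars false

noncomputable section

namespace Fermat.Agent.MX

open AlgebraicCurve IntermediateField
open Fermat.Agent.FunField Fermat.Agent.Flat Fermat.Agent.LG Fermat.Agent.ModFun
open Fermat.Agent.WP hiding X
open Fermat.Agent.Mzr Fermat.Agent.Tor Fermat.Agent.EC
open Fermat.Agent.ESCore (ιC HauptFn haupt2 haupt3)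
open WeierstrassCurve WeierstrassCurve.Affine

/-- The field of algebraic numbers. -/
local notation "Qb" => AlgebraicClosure ℚ
/-- The absolute Galois group. -/
local notation "GQ" => (AlgebraicClosure ℚ ≃ₐ[ℚ] AlgebraicClosure ℚ)

section St

variable {N : ℕ} [hNp : Fact N.Prime] [NeZero N] {ζ : Qbˣ}

theorem PQ_gal_st (W : WeierstrassCurve ℚ) {Q : (W⁄Qb).Point} (hQN : addOrderOf Q = N) {σ : GQ}
    {m : ℕ} (hQ : Affine.Point.map (W' := W) σ.toAlgHom Q = m • Q) :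
    (PQ N W Q).map (σ.toRingEquiv : Qb →+* Qb) = PQ N W Q := by
  have hm : ¬ N ∣ m := by
    rintro ⟨c, rfl⟩
    have h1 : (N * c) • Q = 0 := by
      have h0 : N • Q = 0 := hQN ▸ addOrderOf_nsmul_eq_zero Q
      rw [mul_comm, mul_smul, h0]
      exact nsmul_zero c
    rw [h1] at hQ
    have h2 := (map_eq_zero_iff _ (Affine.Point.map_injective (W' := W) σ.toAlgHom)).mp hQ
    rw [h2, addOrderOf_zero] at hQN
    exact hNp.out.one_lt.ne hQN
  let w : (ZMod N)ˣ := ZMod.unitOfCoprime m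
    (Nat.Coprime.symm ((Nat.Prime.coprime_iff_not_dvd hNp.out).mpr hm))
  rw [PQ, Polynomial.map_prod]
  refine Fintype.prod_equiv (Equiv.mulRight w) _ _ fun u => ?_
  rw [Polynomial.map_sub, Polynomial.map_X, Polynomial.map_C]
  congr 2
  have h1 := Xs_gal W σ (ZMod.val (u : ZMod N) • Q)
  rw [map_nsmul, hQ, smul_smul] at h1
  refine h1.symm.trans ?_
  congr 1
  have h3 : ((ZMod.val (u : ZMod N) * m : ℕ) : ZMod N) =
      ((ZMod.val (((u * w : (ZMod N)ˣ)) : ZMod N) : ℕ) : ZMod N) := by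
    rw [Nat.cast_mul, ZMod.natCast_zmod_val, ZMod.natCast_zmod_val, Units.val_mul,
      ZMod.coe_unitOfCoprime]
  rw [ZMod.natCast_eq_natCast_iff] at h3
  exact nsmul_eq_nsmul_iff_modEq.mpr (by rw [hQN]; exact h3)

/-- **The place is rational.** -/
theorem xpt_fixed_st (hN : 1 < N) (hζ : ιC ζ = Complex.exp (2 * Real.pi * Complex.I / N))
    (W : WeierstrassCurve ℚ) [W.IsElliptic] {Q : (W⁄Qb).Point} (hQN : addOrderOf Q = N)
    {x : Place Qb (F0 Qb N)}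
    (h1 : 0 < x.ord (jF Qb N - algebraMap Qb (F0 Qb N) (algebraMap ℚ Qb W.j)))
    (h2 : ∀ k, (HS hN hζ).coeff k ∈ x.toValuationSubring ∧
        evp x ((HS hN hζ).coeff k) = (PQ N W Q).coeff k)
    (h3 : ∀ (y : Place Qb (F0 Qb N)) (R : Polynomial Qb) (r : Qb),
        0 < y.ord (jF Qb N - algebraMap Qb (F0 Qb N) (algebraMap ℚ Qb W.j)) →
        (∀ k, evp y ((HS hN hζ).coeff k) = R.coeff k) → R.IsRoot r → (PQ N W Q).IsRoot r →
        y = x) {σ : GQ} {m : ℕ} (hQ : Affine.Point.map (W' := W) σ.toAlgHom Q = m • Q) :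
    galF0 N σ • x = x := by
  have hrt : (PQ N W Q).IsRoot (Xs (W⁄Qb) (ZMod.val ((1 : (ZMod N)ˣ) : ZMod N) • Q)) := by
    rw [PQ, Polynomial.isRoot_prod]
    exact ⟨1, Finset.mem_univ _, by rw [Polynomial.root_X_sub_C]⟩
  refine h3 _ (PQ N W Q) _ ?_ (fun k => ?_) hrt hrt
  · have h4 : galF0 N σ • (jF Qb N - algebraMap Qb (F0 Qb N) (algebraMap ℚ Qb W.j)) =
        jF Qb N - algebraMap Qb (F0 Qb N) (algebraMap ℚ Qb W.j) := by
      rw [smul_sub, WP.galF0_C, galF0_jF']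
    rw [← h4, SemilinearAut.ord_smul]
    exact h1
  · conv_lhs => rw [← HS_gal hN hζ σ k]
    rw [rational_smul _ ((sep_F0 N).rational x) (h2 k).1, (h2 k).2]
    conv_rhs => rw [← PQ_gal_st W hQN hQ, Polynomial.coeff_map]
    rfl

/-- **The rational place attached to `(W, ⟨Q⟩)`**. -/
theorem exists_xpt_st (hN : 1 < N) (hζ : ιC ζ = Complex.exp (2 * Real.pi * Complex.I / N))
    (W : WeierstrassCurve ℤ) [(W.map (Int.castRingHom ℚ)).IsElliptic] (h2 : ¬ (2 : ℤ) ∣ W.c₄)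
    {Q : ((W.map (Int.castRingHom ℚ))⁄(AlgebraicClosure ℚ)).Point}
    (hst : ∀ σ : GQ, ∃ m : ℕ, σ • Q = m • Q) (hQ : addOrderOf Q = N) :
    ∃ x : Place Qb (F0 Qb N), (∀ σ : GQ, galF0 N σ • x = x) ∧
      0 < x.ord (jF Qb N - algebraMap Qb (F0 Qb N)
        (algebraMap ℚ Qb (W.map (Int.castRingHom ℚ)).j)) ∧
      ∀ k, (HS hN hζ).coeff k ∈ x.toValuationSubring ∧
        evp x ((HS hN hζ).coeff k) = (PQ N (W.map (Int.castRingHom ℚ)) Q).coeff k := by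
  obtain ⟨x, h3, h4, h5⟩ := exists_xpt hN hζ (W.map (Int.castRingHom ℚ)) (j_ne_zero_of_int h2)
    (j_ne_1728_of_int h2) hQ
  refine ⟨x, fun σ => ?_, h3, h4⟩
  obtain ⟨m, hm⟩ := hst σ
  exact xpt_fixed_st hN hζ _ hQ h3 h4 h5 (m := m) hm

end St

section Core

variable {p : ℕ} [hp : Fact p.Prime] {κ : ℤ} {N M : ℕ} [hNp : Fact N.Prime] [NeZero N] [NeZero M]
  {H : HauptFn p κ} {a b : ℤ} {A : ValuationSubring Qb} {l : ℕ} {ζ : Qbˣ}

/-- Both levels. -/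
def NearL (H : HauptFn p κ) (A : ValuationSubring Qb) (hpM : p ∣ M) (hNM : N ∣ M)
    (x c : Place Qb (F0 Qb N)) : Prop :=
  Near A N (jF Qb N)⁻¹ x c ∧
  ∃ x' c' : Place Qb (F0 Qb M), Abv (incM hNM) x' x ∧ Abv (incM hNM) c' c ∧
    (∀ σ ∈ A.decompositionSubgroup ℚ, galF0 M σ • x' = x') ∧
    (∀ σ : GQ, galF0 M σ • c' = c') ∧
    (∃ c : A, 0 < x'.ord ((tF H hpM)⁻¹ - algebraMap Qb _ (c : Qb))) ∧
    (∃ c : A, 0 < c'.ord ((tF H hpM)⁻¹ - algebraMap Qb _ (c : Qb))) ∧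
    Near A M (tF H hpM)⁻¹ x' c'

/-- **The place near the cusps**. -/
theorem core_st (h : HRel H a b) (hM : M = N * p) (hne : N ≠ p) (hpM : p ∣ M) (hNM : N ∣ M)
    (hV : ValM A M (tF H hpM)⁻¹) (hl : l.Prime) (hA : A.LiesOverPrime l) (hlN : ¬ l ∣ N)
    (hN : 1 < N) (hζ : ιC ζ = Complex.exp (2 * Real.pi * Complex.I / N)) (B : Bez N p)
    {x : Place Qb (F0 Qb N)} {j₀ : ℚ} (hx : 0 < x.ord (jF Qb N - algebraMap Qb _ (j₀ : Qb)))
    (hj0 : 1 < A.valuation (j₀ : Qb)) (hj1 : j₀ ≠ 1728) (hfix : ∀ σ : GQ, galF0 N σ • x = x)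
    {P : Polynomial Qb} (hP : ∀ k, (HS hN hζ).coeff k ∈ x.toValuationSubring ∧
      evp x ((HS hN hζ).coeff k) = P.coeff k) {r : Qb} (hr : A.valuation r ≤ 1)
    (hPr : P.eval r = 0) :
    (1 ≤ A.valuation r → NearL H A hpM hNM x (cInf N)) ∧
    (A.valuation r < 1 → NearL H A hpM hNM x (cZero N)) := by
  obtain ⟨x', T₀, h1, h2, h3, h4⟩ := exists_fixed_lift h hM hne hpM hNM A hx hj0 hj1 hfix
  have hT0 : T₀ ≠ 0 := by
    rintro rfl
    rw [map_zero] at h3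
    exact absurd h3 (not_lt.mpr zero_le)
  have hj00 : (j₀ : Qb) ≠ 0 := by
    intro h0
    rw [h0, map_zero] at hj0
    exact absurd hj0 (not_lt.mpr zero_le)
  have hxj : x.ord (jF Qb N) ≤ 0 := by
    have htr : Transcendental Qb (jF Qb N) := by
      obtain ⟨ζ, hζ⟩ := exists_zetaΩ ιC N
      exact (sep_jF hζ).trans
    exact (ord_inv_sub htr hj00 hx).1.le
  have hcv : A.valuation T₀⁻¹ < 1 := by
    rw [map_inv₀]
    exact inv_lt_one_of_one_lt₀ h3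
  have hcA : T₀⁻¹ ∈ A := (A.valuation_le_one_iff _).mp hcv.le
  have hxv := (ord_inv_sub (trans_tF H hpM) hT0 h2).2
  have hc0 : ∀ c' : Place Qb (F0 Qb M), c'.ord (tF H hpM) < 0 →
      ∃ c : A, 0 < c'.ord ((tF H hpM)⁻¹ - algebraMap Qb _ (c : Qb)) := by
    intro c' hc'
    refine ⟨0, ?_⟩
    rw [ZeroMemClass.coe_zero, map_zero, sub_zero, Place.ord_inv]
    omega
  have hi : (cInf M).ord (tF H hpM) < 0 := by
    rw [cInf_ord_T]; norm_num
  have hw : (cW B hM).ord (tF H hpM) < 0 := by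
    rw [cW_ord_T]
    have := hNp.out.pos
    omega
  rcases near_M B hM hV h hne h3 h2 with hn | hn
  · have h5 := near_down h hNM hpM hV h1 (abv_cInf hNM) h3 h2 hi hxj hn
    have h6 := near_cInf hl hA hlN hN hζ hj0 hx hP h5 hr hPr
    exact ⟨fun _ => ⟨h5, x', cInf M, h1, abv_cInf hNM, h4, galF0_cInfM, ⟨⟨_, hcA⟩, hxv⟩,
      hc0 _ hi, hn⟩, fun h7 => absurd h7 (by rw [h6.1]; exact lt_irrefl _)⟩
  · have h5 := near_down h hNM hpM hV h1 (abv_cW B hM hNM) h3 h2 hw hxj hn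
    have h6 := near_cZero hl hA hlN hN hζ hj0 hx hP h5 hr hPr
    exact ⟨fun h7 => absurd h6 (not_lt.mpr h7), fun _ => ⟨h5, x', cW B hM, h1,
      abv_cW B hM hNM, h4, galF0_cW B hM, ⟨⟨_, hcA⟩, hxv⟩, hc0 _ hw, hn⟩⟩

end Core

section Final

variable {N : ℕ} [hNp : Fact N.Prime] [NeZero N] {W : WeierstrassCurve ℤ}

/-- The near-cusp data at a prime. -/
theorem local_data_st {p : ℕ} [hp : Fact p.Prime] {κ : ℤ} {M : ℕ} [NeZero M]
    {H : HauptFn p κ} {a b : ℤ} (h : HRel H a b) (hM : M = N * p) (hne : N ≠ p) (hpM : p ∣ M)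
    (hNM : N ∣ M) {ζ : Qbˣ}
    (hζ : ιC ζ = Complex.exp (2 * Real.pi * Complex.I / N))
    (hΔ : W.Δ ≠ 0) [(W.map (Int.castRingHom ℚ)).IsElliptic]
    (hj1 : (W.map (Int.castRingHom ℚ)).j ≠ 1728)
    {Q : ((W.map (Int.castRingHom ℚ))⁄(AlgebraicClosure ℚ)).Point}
    (hQ : addOrderOf Q = N)
    {x : Place Qb (F0 Qb N)} (hfix : ∀ σ : GQ, galF0 N σ • x = x)
    (hx : 0 < x.ord (jF Qb N - algebraMap Qb (F0 Qb N)
        (algebraMap ℚ Qb (W.map (Int.castRingHom ℚ)).j)))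
    (hP : ∀ k, (HS hNp.out.one_lt hζ).coeff k ∈ x.toValuationSubring ∧
        evp x ((HS hNp.out.one_lt hζ).coeff k) = (PQ N (W.map (Int.castRingHom ℚ)) Q).coeff k)
    {l : ℕ} (hl : l.Prime) (hlN : l ≠ N) (hd : (l : ℤ) ∣ W.Δ) (hc : ¬ (l : ℤ) ∣ W.c₄)
    {A : ValuationSubring Qb} (hA : A.LiesOverPrime l) (hV : ValM A M (tF H hpM)⁻¹) :
    (W.InZeroComponentAt A Q → NearL H A hpM hNM x (cInf N)) ∧
    (¬ W.InZeroComponentAt A Q → NearL H A hpM hNM x (cZero N)) := by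
  have hlN' : ¬ l ∣ N := fun h => hlN ((Nat.prime_dvd_prime_iff_eq hl hNp.out).mp h)
  have hQ0 : N • Q = 0 := hQ ▸ addOrderOf_nsmul_eq_zero Q
  have hQne : Q ≠ 0 := by
    rintro rfl
    rw [addOrderOf_zero] at hQ
    exact hNp.out.one_lt.ne hQ
  obtain ⟨B⟩ := nonempty_bez ((Nat.coprime_primes hNp.out hp.out).mpr hne)
  have hr := v_Xs_le (W := W) hl hlN' hA hd hc hQ0
  set r := Xs ((W.map (Int.castRingHom ℚ))⁄Qb) Q with hrdef
  have hz : W.InZeroComponentAt A Q ↔ 1 ≤ A.valuation r :=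
    inZeroComponentAt_iff (v_c₄ hl hA hc) (v_Δ hA hd) hΔ hQne (v_xc hl hlN' hA hQ0)
  have hx' : 0 < x.ord (jF Qb N - algebraMap Qb (F0 Qb N)
      (((W.map (Int.castRingHom ℚ)).j : ℚ) : Qb)) := by
    rw [← eq_ratCast (algebraMap ℚ Qb)]
    exact hx
  obtain ⟨h1, h2⟩ := core_st h hM hne hpM hNM hV hl hA hlN' hNp.out.one_lt hζ B hx'
    (v_j hl hA hd hc) hj1 hfix hP hr (PQ_eval _)
  exact ⟨fun h3 => h1 (hz.mp h3), fun h3 => h2 (not_le.mp (fun h4 => h3 (hz.mpr h4)))⟩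

/-- **The rational place attached to a stable line in Mazur's argument**: at the places above `2`
use level `3N`, at all others level `2N`. -/
theorem exists_x_st (hN3 : 3 < N) (hΔ : W.Δ ≠ 0)
    {Q : ((W.map (Int.castRingHom ℚ))⁄(AlgebraicClosure ℚ)).Point}
    (hst : ∀ σ : GQ, ∃ m : ℕ, σ • Q = m • Q) (hQ : addOrderOf Q = N)
    (h2c₄ : ¬ (2 : ℤ) ∣ W.c₄) :
    ∃ x : FixPl N,
      (∀ l : ℕ, l.Prime → l ≠ N → (l : ℤ) ∣ W.Δ → ¬ (l : ℤ) ∣ W.c₄ →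
        ∀ A : ValuationSubring Qb, A.LiesOverPrime l →
          (∃ c : A, 0 < x.pl.ord ((jF Qb N)⁻¹ - algebraMap Qb _ (c : Qb))) ∧
          (l ≠ 3 → (W.InZeroComponentAt A Q → NearL haupt3 A (dvd_mul_left 3 N)
              (dvd_mul_right N 3) x.pl (cI : FixPl N).pl) ∧
            (¬ W.InZeroComponentAt A Q → NearL haupt3 A (dvd_mul_left 3 N)
              (dvd_mul_right N 3) x.pl (cO : FixPl N).pl)) ∧
          (l ≠ 2 → (W.InZeroComponentAt A Q → NearL haupt2 A (dvd_mul_left 2 N)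
              (dvd_mul_right N 2) x.pl (cI : FixPl N).pl) ∧
            (¬ W.InZeroComponentAt A Q → NearL haupt2 A (dvd_mul_left 2 N)
              (dvd_mul_right N 2) x.pl (cO : FixPl N).pl))) := by
  have hell : (W.map (Int.castRingHom ℚ)).IsElliptic := isElliptic_of_int hΔ
  obtain ⟨ζ, hζ⟩ := exists_zetaΩ ιC N
  obtain ⟨x, hfix, hx, hP⟩ := exists_xpt_st hNp.out.one_lt hζ W h2c₄ hst hQ
  have hj1 := j_ne_1728_of_int (W := W) h2c₄
  have hN2 : N ≠ 2 := by omega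
  have hN3' : N ≠ 3 := by omega
  refine ⟨⟨x, hfix⟩, ?_⟩
  intro l hl hlN hd hc A hA
  refine ⟨?_, fun hl3 => ?_, fun hl2 => ?_⟩
  · have h8 := v_j (W := W) hl hA hd hc
    have hj0 : (((W.map (Int.castRingHom ℚ)).j : ℚ) : Qb) ≠ 0 := by
      intro h0
      rw [h0, map_zero] at h8
      exact absurd h8 (not_lt.mpr zero_le)
    have hcv : A.valuation (((W.map (Int.castRingHom ℚ)).j : ℚ) : Qb)⁻¹ < 1 := by
      rw [map_inv₀]
      exact inv_lt_one_of_one_lt₀ h8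
    rw [eq_ratCast] at hx
    exact ⟨⟨_, (A.valuation_le_one_iff _).mp hcv.le⟩,
      (ord_inv_sub (sep_jF hζ).trans hj0 hx).2⟩
  · have hV : ValM A (N * 3) (tF haupt3 (dvd_mul_left 3 N))⁻¹ :=
      valM3 hl hA hl3 (not_dvd_mul hl hNp.out Nat.prime_three hlN hl3) _
    exact local_data_st hrel3 rfl hN3' (dvd_mul_left 3 N) (dvd_mul_right N 3) hζ hΔ hj1
      hQ hfix hx hP hl hlN hd hc hA hV
  · have hV : ValM A (N * 2) (tF haupt2 (dvd_mul_left 2 N))⁻¹ :=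
      valM2 hl hA hl2 (not_dvd_mul hl hNp.out Nat.prime_two hlN hl2) _
    exact local_data_st hrel2 rfl hN2 (dvd_mul_left 2 N) (dvd_mul_right N 2) hζ hΔ hj1
      hQ hfix hx hP hl hlN hd hc hA hV

end Final

end Fermat.Agent.MX
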