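import Fermat.Agent.Flat.Points

/-!
Congruence of places: the abstract lemma.
-/

set_option autoImplicit false
set_option linter.unusedSectionVars false

noncomputable section

namespace Fermat.Agent.MX

open AlgebraicCurve IsDedekindDomain IntermediateField WithZero Module Fermat.Agent.FunField
open Fermat.Agent.Flat

variable {Ω F : Type*} [Field Ω] [Field F] [Algebra Ω F] [IsAlgClosed Ω]

/-- Values at a point. -/
theorem evp_pow {v : Place Ω F} (hv : Rational v) {x : F} (hx : x ∈ v.toValuationSubring) (n : ℕ) :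
    evp v (x ^ n) = evp v x ^ n := by
  induction n with
  | zero => rw [pow_zero, pow_zero, evp_one]
  | succ n ih => rw [pow_succ, evp_mul hv (pow_mem hx n) hx, ih, pow_succ]

theorem evp_sub_const {v : Place Ω F} (hv : Rational v) {x : F} (hx : x ∈ v.toValuationSubring)
    (c : Ω) : evp v (x - algebraMap Ω F c) = evp v x - c := by
  rw [evp_sub hv hx (v.algebraMap_mem' c), evp_algebraMap]

theorem evp_t {v : Place Ω F} {t : F} {c : Ω} (hv : 0 < v.ord (t - algebraMap Ω F c)) :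
    evp v t = c := evp_unique (by rw [adicValuation_lt_one_iff]; exact Or.inr hv)

theorem ord_sub_evp_pos {v : Place Ω F} (hv : Rational v) {x : F}
    (hx : x ∈ v.toValuationSubring) : x - algebraMap Ω F (evp v x) = 0 ∨
      0 < v.ord (x - algebraMap Ω F (evp v x)) := by
  have h := evp_spec hv hx
  rwa [adicValuation_lt_one_iff] at h

theorem Reg.pow {t z : F} (h : Reg Ω t z) (n : ℕ) : Reg Ω t (z ^ n) := fun _ hv =>
  ord_nonneg_of_mem _ (pow_mem (h.mem hv) n)

theorem Reg.sub {t z z' : F} (h : Reg Ω t z) (h' : Reg Ω t z') : Reg Ω t (z - z') := fun _ hv =>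
  ord_nonneg_of_mem _ (sub_mem (h.mem hv) (h'.mem hv))

/-- Data for the congruence lemma. -/
structure NrData (A : ValuationSubring Ω) (W : Subring F) (t : F) (c₁ c₂ : Place Ω F) : Prop where
  sep : Sep Ω t
  alg : ∀ a ∈ A, algebraMap Ω F a ∈ W
  inv : t⁻¹ ∈ W
  val : ∀ (v : Place Ω F) (c : A), 0 < v.ord (t - algebraMap Ω F c) → ∀ z ∈ W,
    Reg Ω t z → evp v z ∈ A
  zero : ∀ v : Place Ω F, 0 < v.ord t → v = c₁ ∨ v = c₂
  pos₁ : 0 < c₁.ord t
  pos₂ : 0 < c₂.ord t

variable {A : ValuationSubring Ω} {W : Subring F} {t : F} {c₁ c₂ : Place Ω F}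

theorem NrData.swap (h : NrData A W t c₁ c₂) : NrData A W t c₂ c₁ where
  sep := h.sep
  alg := h.alg
  inv := h.inv
  val := h.val
  zero := fun v hv => (h.zero v hv).symm
  pos₁ := h.pos₂
  pos₂ := h.pos₁

theorem NrData.val₁ (h : NrData A W t c₁ c₂) {z : F} (hz : z ∈ W) (hr : Reg Ω t z) :
    evp c₁ z ∈ A :=
  h.val c₁ 0 (by rw [ZeroMemClass.coe_zero, map_zero, sub_zero]; exact h.pos₁) z hz hr

theorem NrData.prod (h : NrData A W t c₁ c₂) {v : Place Ω F} {c : A}
    (hv : 0 < v.ord (t - algebraMap Ω F c)) (hc : A.valuation (c : Ω) < 1) {z : F} (hz : z ∈ W)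
    (hr : Reg Ω t z) (h1 : evp c₁ z = 0) (h2 : evp c₂ z = 0) : A.valuation (evp v z) < 1 := by
  have hrat : ∀ w : Place Ω F, Rational w := fun w => h.sep.rational w
  have hv0 : 0 ≤ v.ord t := ord_t_nonneg hv
  have ht0 : t ≠ 0 := h.sep.ne_zero
  set n := (c₁.ord t).toNat + (c₂.ord t).toNat with hn
  set y : F := z ^ n * t⁻¹ with hy
  have hyW : y ∈ W := mul_mem (pow_mem hz n) h.inv
  have key : ∀ w : Place Ω F, 0 < w.ord t → evp w z = 0 → w.ord t ≤ n → 0 ≤ w.ord y := by
    intro w hw hwz hle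
    have h3 := ord_sub_evp_pos (hrat w) (hr.mem (v := w) hw.le)
    rw [hwz, map_zero, sub_zero] at h3
    rcases h3 with h3 | h3
    · have hn0 : n ≠ 0 := by
        have := h.pos₁
        omega
      rw [hy, h3, zero_pow hn0, zero_mul, w.ord_zero]
    · have hz0 : z ≠ 0 := by
        rintro rfl
        rw [w.ord_zero] at h3
        exact lt_irrefl _ h3
      rw [hy, w.ord_mul (pow_ne_zero n hz0) (inv_ne_zero ht0), ord_pow, w.ord_inv]
      nlinarith
  have hyr : Reg Ω t y := by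
    intro w hw
    rcases hw.lt_or_eq with h3 | h3
    · rcases h.zero w h3 with rfl | rfl
      · exact key w h3 h1 (by omega)
      · exact key w h3 h2 (by omega)
    · by_cases hz0 : z = 0
      · have hn0 : n ≠ 0 := by
          have := h.pos₁
          omega
        rw [hy, hz0, zero_pow hn0, zero_mul, w.ord_zero]
      · rw [hy, w.ord_mul (pow_ne_zero n hz0) (inv_ne_zero ht0), w.ord_inv, ← h3, neg_zero,
          add_zero]
        exact Reg.pow hr n w hw
  have h4 := h.val v c hv y hyW hyr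
  have h5 : z ^ n = y * t := by
    rw [hy, mul_assoc, inv_mul_cancel₀ ht0, mul_one]
  have h6 : evp v z ^ n = evp v y * c := by
    rw [← evp_pow (hrat v) (hr.mem hv0), h5, evp_mul (hrat v) (hyr.mem hv0)
      (mem_of_ord_nonneg v hv0), evp_t hv]
  have hn0 : n ≠ 0 := by
    have := h.pos₁
    omega
  rw [← pow_lt_one_iff_of_nonneg zero_le hn0, ← map_pow, h6, map_mul]
  exact (mul_le_mul' ((A.valuation_le_one_iff _).mpr h4) le_rfl).trans_lt (by rwa [one_mul])

/-- **The congruence lemma.** -/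
theorem NrData.near (h : NrData A W t c₁ c₂) {v : Place Ω F} {c : A}
    (hv : 0 < v.ord (t - algebraMap Ω F c)) (hc : A.valuation (c : Ω) < 1) :
    (∀ z ∈ W, Reg Ω t z → A.valuation (evp v z - evp c₁ z) < 1) ∨
      (∀ z ∈ W, Reg Ω t z → A.valuation (evp v z - evp c₂ z) < 1) := by
  have hrat : ∀ w : Place Ω F, Rational w := fun w => h.sep.rational w
  have hv0 : 0 ≤ v.ord t := ord_t_nonneg hv
  by_contra hcon
  push Not at hcon
  obtain ⟨⟨z₁, hz₁, hr₁, h1⟩, ⟨z₂, hz₂, hr₂, h2⟩⟩ := hcon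
  have a1 := h.val₁ hz₁ hr₁
  have a2 := h.swap.val₁ hz₂ hr₂
  set z : F := (z₁ - algebraMap Ω F (evp c₁ z₁)) * (z₂ - algebraMap Ω F (evp c₂ z₂)) with hz
  have hr₁' : Reg Ω t (z₁ - algebraMap Ω F (evp c₁ z₁)) := Reg.sub hr₁ (Reg.algebraMap _)
  have hr₂' : Reg Ω t (z₂ - algebraMap Ω F (evp c₂ z₂)) := Reg.sub hr₂ (Reg.algebraMap _)
  have hzW : z ∈ W := mul_mem (sub_mem hz₁ (h.alg _ a1)) (sub_mem hz₂ (h.alg _ a2))
  have hzr : Reg Ω t z := Reg.mul hr₁' hr₂'
  have ev : ∀ w : Place Ω F, 0 ≤ w.ord t → evp w z =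
      (evp w z₁ - evp c₁ z₁) * (evp w z₂ - evp c₂ z₂) := by
    intro w hw
    rw [hz, evp_mul (hrat w) (hr₁'.mem hw) (hr₂'.mem hw), evp_sub_const (hrat w) (hr₁.mem hw),
      evp_sub_const (hrat w) (hr₂.mem hw)]
  have h3 := h.prod hv hc hzW hzr (by rw [ev _ h.pos₁.le, sub_self, zero_mul])
    (by rw [ev _ h.pos₂.le, sub_self, mul_zero])
  rw [ev v hv0, map_mul] at h3
  exact absurd h3 (not_lt.mpr (one_le_mul h1 h2))

end Fermat.Agent.MX
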