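import Fermat.Agent.MX.Cus
import Fermat.Agent.MX.Nr
import Fermat.Agent.WP.Cusp

/-!
The cusps of `X₀(pN)` above the cusp `∞` of `X₀(p)`, `p = 2, 3`.
-/

set_option autoImplicit false
set_option linter.unusedSectionVars false

noncomputable section

namespace Fermat.Agent.MX

open AlgebraicCurve IsDedekindDomain IntermediateField WithZero Module Fermat.Agent.FunField
open Fermat.Agent.Flat Fermat.Agent.LG Fermat.Agent.ModFun Fermat.Agent.WP
open Fermat.Agent.ESCore (ιC HauptFn haupt2 haupt3)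
open ModularCurve (qExpand jqModC)

/-- The field of algebraic numbers. -/
local notation "Qb" => AlgebraicClosure ℚ
/-- The absolute Galois group. -/
local notation "GQ" => (AlgebraicClosure ℚ ≃ₐ[ℚ] AlgebraicClosure ℚ)

variable {p : ℕ} [hp : Fact p.Prime] {κ : ℤ} {N M : ℕ} [hN : Fact N.Prime] [NeZero N] [NeZero M]

/-- The relation between `j` and the Hauptmodul. -/
structure HRel (H : HauptFn p κ) (a b : ℤ) : Prop where
  rel : jqModC Qb * tS Qb p κ ^ p =
    (tS Qb p κ + HahnSeries.C (a : Qb)) * (tS Qb p κ + HahnSeries.C (b : Qb)) ^ p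
  apow : ∃ i : ℕ, a = p ^ i
  bpow : ∃ i : ℕ, b = p ^ i

theorem hrel2 : HRel haupt2 256 256 where
  rel := by
    have h := haut2.series ιC
    rw [h, Polynomial.map_pow, Polynomial.map_add, Polynomial.map_X, Polynomial.map_C,
      Polynomial.eval₂_pow, Polynomial.eval₂_add, Polynomial.eval₂_X, Polynomial.eval₂_C]
    simp only [eq_intCast]
    rw [pow_succ']
  apow := ⟨8, by norm_num⟩
  bpow := ⟨8, by norm_num⟩

theorem hrel3 : HRel haupt3 27 243 where
  rel := by
    have h := haut3.series ιC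
    rw [h, Polynomial.map_mul, Polynomial.map_pow, Polynomial.map_add, Polynomial.map_add,
      Polynomial.map_X, Polynomial.map_C, Polynomial.map_C,
      Polynomial.eval₂_mul, Polynomial.eval₂_pow, Polynomial.eval₂_add, Polynomial.eval₂_add,
      Polynomial.eval₂_X, Polynomial.eval₂_C, Polynomial.eval₂_C]
    simp only [eq_intCast]
  apow := ⟨3, by norm_num⟩
  bpow := ⟨5, by norm_num⟩

variable {H : HauptFn p κ} {a b : ℤ}

theorem HRel.a_ne (h : HRel H a b) : (a : Qb) ≠ 0 := by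
  obtain ⟨i, rfl⟩ := h.apow
  push_cast
  exact pow_ne_zero _ (by exact_mod_cast hp.out.ne_zero)

theorem HRel.b_ne (h : HRel H a b) : (b : Qb) ≠ 0 := by
  obtain ⟨i, rfl⟩ := h.bpow
  push_cast
  exact pow_ne_zero _ (by exact_mod_cast hp.out.ne_zero)

theorem HRel.relF (h : HRel H a b) (hpM : p ∣ M) : jF Qb M * tF H hpM ^ p =
    (tF H hpM + algebraMap Qb _ (a : Qb)) * (tF H hpM + algebraMap Qb _ (b : Qb)) ^ p := by
  apply Subtype.ext
  have h1 : ∀ c : Qb, ((algebraMap Qb (F0 Qb M) c : F0 Qb M) : LaurentSeries Qb) =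
      HahnSeries.C c := fun c => algebraMap_eq_C c
  change jqModC Qb * tS Qb p κ ^ p = (tS Qb p κ + ((algebraMap Qb (F0 Qb M) (a : Qb) : F0 Qb M) :
    LaurentSeries Qb)) * (tS Qb p κ + ((algebraMap Qb (F0 Qb M) (b : Qb) : F0 Qb M) :
    LaurentSeries Qb)) ^ p
  rw [h1, h1]
  exact h.rel

theorem card_XN_mul (hM : M = N * p) (hNp : N ≠ p) :
    Fintype.card (XN M) = (p + 1) * (N + 1) := by
  have hco : N.Coprime p := (Nat.coprime_primes hN.out hp.out).mpr hNp
  have h1 : Fintype.card (XN M) = ModularCurve.dedekindPsi M := by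
    rw [← Fermat.Agent.Gamma0Comb.index_Gamma0, Subgroup.index, Nat.card_eq_fintype_card]
  have h2 := Fermat.Agent.Gamma0Comb.dedekindPsi_prime_pow hN.out 0
  have h3 := Fermat.Agent.Gamma0Comb.dedekindPsi_prime_pow hp.out 0
  rw [zero_add, pow_one, pow_zero] at h2 h3
  rw [h1, hM, Fermat.Agent.Gamma0Comb.dedekindPsi_mul hco, h2, h3, mul_comm]

theorem finrank_T (h : HRel H a b) (hM : M = N * p) (hNp : N ≠ p) (hpM : p ∣ M) :
    finrank Qb⟮tF H hpM⟯ (F0 Qb M) = N + 1 := by
  obtain ⟨ζ, hζ⟩ := exists_zetaΩ ιC M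
  have h1 := finrank_rel (h.relF hpM) (trans_tF H hpM) h.a_ne h.b_ne (sep_tF H hpM) (sep_jF hζ)
  rw [finrank_eq hζ, card_XN_mul hM hNp] at h1
  exact (Nat.eq_of_mul_eq_mul_left (Nat.succ_pos p) h1).symm

theorem order_tS : (tS Qb p κ).order = -1 := by
  refine order_eq_of_coeff ?_ fun m hm => ?_
  · rw [coeff_tS_neg_one]
    exact one_ne_zero
  · exact coeff_tS_of_lt hm

theorem order_qExpand {x : LaurentSeries Qb} (hx : x ≠ 0) (n : ℕ) [NeZero n] :
    (qExpand Qb n x).order = n * x.order := by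
  have hpos : (0 : ℤ) < n := by exact_mod_cast Nat.pos_of_ne_zero (NeZero.ne n)
  refine order_eq_of_coeff ?_ ?_
  · rw [ModularCurve.qExpand_coeff_mul]
    exact HahnSeries.coeff_order_eq_zero.not.2 hx
  · intro m hm
    by_cases hdvd : (n : ℤ) ∣ m
    · obtain ⟨k, rfl⟩ := hdvd
      rw [ModularCurve.qExpand_coeff_mul]
      exact HahnSeries.coeff_eq_zero_of_lt_order (by nlinarith)
    · exact ModularCurve.qExpand_coeff_of_not_dvd _ _ hdvd

theorem tF_ne_zero (H : HauptFn p κ) (hpM : p ∣ M) : tF H hpM ≠ 0 := (sep_tF H hpM).ne_zero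

theorem cInf_ord_T (H : HauptFn p κ) (hpM : p ∣ M) : (cInf M).ord (tF H hpM) = -1 := by
  rw [cInf_ord (tF_ne_zero H hpM)]
  exact order_tS

section W

variable (B : Bez N p) (hM : M = N * p)

/-- the involution -/
def wM : F0 Qb M ≃+* F0 Qb M := B.wF ιC hN.out hM

theorem wM_wM (f : F0 Qb M) : wM B hM (wM B hM f) = f := B.wF_wF _ _ f

theorem wM_C (c : Qb) : wM B hM (algebraMap Qb _ c) = algebraMap Qb _ c := B.wF_C _ _ c

theorem wM_jF : ((wM B hM (jF Qb M) : F0 Qb M) : LaurentSeries Qb) = qExpand Qb N (jqModC Qb) := by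
  have h1 : qExpand Qb 1 (jqModC Qb) ∈ F0 Qb M :=
    IntermediateField.subset_adjoin _ _ (gens_dvd (one_dvd M))
  have h2 : jF Qb M = ⟨_, h1⟩ := Subtype.ext qExpand_one_jq.symm
  have h3 := B.wF_gen₁ (ι := ιC) (N := M) hN.out hM (one_dvd p) h1
  rw [h2]
  refine h3.trans ?_
  simp only [mul_one]

theorem wM_T (H : HauptFn p κ) (hpM : p ∣ M) :
    ((wM B hM (tF H hpM) : F0 Qb M) : LaurentSeries Qb) = qExpand Qb N (tS Qb p κ) :=
  B.wF_level (ι := ιC) hN.out hM (F0_mono hpM) (tF H (dvd_refl p))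

/-- the embedding at the other cusp -/
def θW : F0 Qb M →+* LaurentSeries Qb := (F0 Qb M).val.toRingHom.comp (wM B hM : F0 Qb M →+* F0 Qb M)

theorem θW_apply (f : F0 Qb M) : θW B hM f = ((wM B hM f : F0 Qb M) : LaurentSeries Qb) := rfl

theorem θW_C (c : Qb) : θW B hM (algebraMap Qb _ c) = HahnSeries.C c := by
  rw [θW_apply, wM_C]
  exact algebraMap_eq_C c

theorem exists_cW : ∃ v : Place Qb (F0 Qb M), ∀ f, v.ord f = (θW B hM f).order := by
  refine exists_place_emb (θW B hM) (θW_C B hM) (f₁ := wM B hM (jF Qb M)) ?_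
  rw [θW_apply, wM_wM]
  exact order_jqModC

/-- the other cusp -/
def cW : Place Qb (F0 Qb M) := (exists_cW B hM).choose

theorem cW_ord (f : F0 Qb M) : (cW B hM).ord f = (θW B hM f).order := (exists_cW B hM).choose_spec f

theorem evp_cW {f : F0 Qb M} (hf : 0 ≤ (cW B hM).ord f) :
    evp (cW B hM) f = (θW B hM f).coeff 0 := evp_emb (θW_C B hM) (cW_ord B hM) hf

theorem cW_ord_T (H : HauptFn p κ) (hpM : p ∣ M) : (cW B hM).ord (tF H hpM) = -(N : ℤ) := by
  have h0 : tS Qb p κ ≠ 0 := fun h => tF_ne_zero H hpM (Subtype.ext h)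
  rw [cW_ord, θW_apply, wM_T, order_qExpand h0, order_tS]
  ring

theorem cInf_ne_cW : cInf M ≠ cW B hM := by
  intro h
  have h1 : (cInf M).ord (jF Qb M) = -1 := cInf_ord_jF
  have h2 : (cW B hM).ord (jF Qb M) = -(N : ℤ) := by
    rw [cW_ord, θW_apply, wM_jF, order_qExpand jqModC_ne_zero, order_jqModC]
    ring
  rw [h, h2] at h1
  have := hN.out.one_lt
  omega

/-- the poles of the Hauptmodul -/
theorem eq_of_pole (h : HRel H a b) (hNp : N ≠ p) (hpM : p ∣ M) {v : Place Qb (F0 Qb M)}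
    (hv : v.ord (tF H hpM) < 0) : v = cInf M ∨ v = cW B hM := by
  refine two_poles (sep_tF H hpM) (cInf_ne_cW B hM) ?_ ?_ ?_ hv
  · rw [cInf_ord_T]; norm_num
  · rw [cW_ord_T]
    have := hN.out.pos
    omega
  · rw [cInf_ord_T, cW_ord_T, finrank_T h hM hNp]
    push_cast
    ring

theorem θW_gal (σ : GQ) (f : F0 Qb M) :
    θW B hM (galF0 M σ • f) = ModularCurve.coeffMap ((σ.toRingEquiv : Qb ≃+* Qb) : Qb →+* Qb)
      (θW B hM f) := by
  have h := B.wF_actF (ι := ιC) (N := M) hN.out hM (σ.toRingEquiv) f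
  exact congrArg (fun z : F0 Qb M => (z : LaurentSeries Qb)) h

end W

section Above

/-- the inclusion of level `N` into level `M` -/
abbrev incM (hNM : N ∣ M) : F0 Qb N →+* F0 Qb M :=
  ((IntermediateField.inclusion (F0_mono (K := Qb) hNM) : F0 Qb N →ₐ[Qb] F0 Qb M) :
    F0 Qb N →+* F0 Qb M)

theorem coe_incM (hNM : N ∣ M) (f : F0 Qb N) :
    ((incM hNM f : F0 Qb M) : LaurentSeries Qb) = (f : LaurentSeries Qb) :=
  IntermediateField.coe_inclusion (F0_mono (K := Qb) hNM) f

theorem incM_C (hNM : N ∣ M) (c : Qb) : incM hNM (algebraMap Qb (F0 Qb N) c) =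
    algebraMap Qb (F0 Qb M) c :=
  (IntermediateField.inclusion (F0_mono (K := Qb) hNM)).commutes c

theorem incM_jF (hNM : N ∣ M) : incM hNM (jF Qb N) = jF Qb M :=
  Subtype.ext (coe_incM hNM _)

theorem abv_cInf (hNM : N ∣ M) : Abv (incM hNM) (cInf M) (cInf N) := by
  refine ⟨1, le_rfl, fun f => ?_⟩
  by_cases hf : f = 0
  · rw [hf, map_zero, Place.ord_zero, Place.ord_zero, mul_zero]
  · rw [cInf_ord hf, cInf_ord ((_root_.map_ne_zero (incM hNM)).mpr hf), Nat.cast_one, one_mul,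
      coe_incM]

theorem θW_inc (B : Bez N p) (hM : M = N * p) (hNM : N ∣ M) (f : F0 Qb N) :
    θW B hM (incM hNM f) = ((wN N f : F0 Qb N) : LaurentSeries Qb) := by
  let g₁ : F0 Qb N →+* LaurentSeries Qb := (θW B hM).comp (incM hNM)
  let g₂ : F0 Qb N →+* LaurentSeries Qb :=
    (F0 Qb N).val.toRingHom.comp (wN N : F0 Qb N →+* F0 Qb N)
  have h : g₁ = g₂ := by
    apply ringHom_ext_adjoin
    · intro c
      change θW B hM (incM hNM (algebraMap Qb (F0 Qb N) c)) =
        ((wN N (algebraMap Qb _ c) : F0 Qb N) : LaurentSeries Qb)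
      rw [incM_C, θW_C, wN_C]
      exact (algebraMap_eq_C c).symm
    · rintro x ⟨d, hd0, hd, rfl⟩
      rcases (Nat.dvd_prime hN.out).mp hd with rfl | rfl
      · change ((wM B hM ⟨_, _⟩ : F0 Qb M) : LaurentSeries Qb) =
          ((wN N ⟨_, _⟩ : F0 Qb N) : LaurentSeries Qb)
        refine (B.wF_gen₁ (ι := ιC) (N := M) hN.out hM (one_dvd p) _).trans ?_
        exact ((frB N).wF_gen₁ (ι := ιC) (N := N) hN.out (mul_one N).symm (dvd_refl 1) _).symm
      · have key : ∀ (n : ℕ) [NeZero n], n = d →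
            (qExpand Qb n (jqModC Qb)) = (qExpand Qb d (jqModC Qb)) := by
          intro n _ h
          subst h
          rfl
        have e := key (d * 1) (mul_one d)
        have m1 : qExpand Qb (d * 1) (jqModC Qb) ∈ F0 Qb M := by
          rw [e]
          exact (F0_mono (K := Qb) hNM)
            (IntermediateField.subset_adjoin _ _ (gens_dvd dvd_rfl))
        have m2 : qExpand Qb (d * 1) (jqModC Qb) ∈ F0 Qb d := by
          rw [e]
          exact IntermediateField.subset_adjoin _ _ (gens_dvd dvd_rfl)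
        have h1 := B.wF_gen₂ (ι := ιC) (N := M) hN.out hM (one_dvd p) m1
        have h2 := (frB d).wF_gen₂ (ι := ιC) (N := d) hN.out (mul_one d).symm (dvd_refl 1) m2
        have e1 : (⟨_, m1⟩ : F0 Qb M) = incM hNM
            ⟨qExpand Qb d (jqModC Qb), IntermediateField.subset_adjoin _ _ (gens_dvd dvd_rfl)⟩ :=
          Subtype.ext e
        have e2 : (⟨_, m2⟩ : F0 Qb d) =
            ⟨qExpand Qb d (jqModC Qb), IntermediateField.subset_adjoin _ _ (gens_dvd dvd_rfl)⟩ :=
          Subtype.ext e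
        rw [e1] at h1
        rw [e2] at h2
        exact h1.trans h2.symm
  exact congrArg (fun g : F0 Qb N →+* LaurentSeries Qb => g f) h

theorem abv_cW (B : Bez N p) (hM : M = N * p) (hNM : N ∣ M) :
    Abv (incM hNM) (cW B hM) (cZero N) := by
  refine ⟨1, le_rfl, fun f => ?_⟩
  by_cases hf : f = 0
  · rw [hf, map_zero, Place.ord_zero, Place.ord_zero, mul_zero]
  · rw [cW_ord, θW_inc, cZero_ord hf, Nat.cast_one, one_mul]

end Above

end Fermat.Agent.MX
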