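import Fermat.Agent.LG.InertField

/-!
Rational values of `z / (1 - z) ^ 2` at roots of unity.
-/

set_option autoImplicit false

noncomputable section

namespace Fermat.Agent.MX

open Fermat.Agent.LG

/-- The field of algebraic numbers. -/
local notation "Qb" => AlgebraicClosure ℚ

theorem c_eq {κ : Type*} [Field κ] {s t : κ} (hs : s ≠ 1) (ht : t ≠ 1)
    (h : s / (1 - s) ^ 2 = t / (1 - t) ^ 2) : s = t ∨ s * t = 1 := by
  have hs' : (1 - s) ^ 2 ≠ 0 := pow_ne_zero 2 (sub_ne_zero.mpr hs.symm)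
  have ht' : (1 - t) ^ 2 ≠ 0 := pow_ne_zero 2 (sub_ne_zero.mpr ht.symm)
  rw [div_eq_div_iff hs' ht'] at h
  have h1 : (s - t) * (1 - s * t) = 0 := by linear_combination h
  rcases mul_eq_zero.mp h1 with h2 | h2
  · exact Or.inl (sub_eq_zero.mp h2)
  · exact Or.inr (sub_eq_zero.mp h2).symm

theorem dvd_sq_sub_one {N l : ℕ} (hN : N.Prime) (hl : l.Prime) (hNl : N ≠ l)
    {A : ValuationSubring Qb} (hA : A.LiesOverPrime l) {ζ : Qb} (hζ : IsPrimitiveRoot ζ N)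
    {i : ℕ} (hi : ¬ N ∣ i) {r : ℚ}
    (h : A.valuation ((r : Qb) - ζ ^ i / (1 - ζ ^ i) ^ 2) < 1) : N ∣ l ^ 2 - 1 := by
  have : Fact l.Prime := ⟨hl⟩
  have hlN : ¬ l ∣ N := fun h => hNl ((Nat.prime_dvd_prime_iff_eq hl hN).mp h).symm
  let κ := IsLocalRing.ResidueField A
  let ρ : A →+* κ := IsLocalRing.residue A
  have hρ0 : ∀ z : A, ρ z = 0 ↔ A.valuation (z : Qb) < 1 := by
    intro z
    rw [IsLocalRing.residue_eq_zero_iff, ValuationSubring.valuation_lt_one_iff]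
  have hl0 : ((l : ℕ) : κ) = 0 := by
    rw [← map_natCast ρ, hρ0]
    exact_mod_cast hA
  have hchar : CharP κ l := (CharP.charP_iff_prime_eq_zero hl).mpr hl0
  set s : Qb := ζ ^ i with hs
  have hsN : s ^ N = 1 := by rw [hs, ← pow_mul, mul_comm, pow_mul, hζ.pow_eq_one, one_pow]
  have hvs : A.valuation s = 1 := by
    have := congrArg A.valuation hsN
    rw [map_pow, map_one] at this
    exact (pow_eq_one_iff_of_ne_zero' hN.ne_zero).mp this
  have hsA : s ∈ A := (A.valuation_le_one_iff s).mp hvs.le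
  -- powers
  have hpow : ∀ k : ℕ, ρ ⟨s, hsA⟩ ^ k = 1 → N ∣ k := by
    intro k hk
    have h1 : A.valuation (s ^ k - 1) < 1 := by
      have h2 : ρ (⟨s, hsA⟩ ^ k - 1) = 0 := by rw [map_sub, map_pow, hk, map_one, sub_self]
      exact (hρ0 _).mp h2
    have h3 : s ^ k = 1 := root_eq_of_congr hl hA hlN
      (by rw [← pow_mul, mul_comm, pow_mul, hsN, one_pow]) (one_pow N) h1
    rw [hs, ← pow_mul, hζ.pow_eq_one_iff_dvd] at h3
    exact (hN.dvd_mul.mp h3).resolve_left hi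
  have hs1 : s ≠ 1 := by
    intro h1
    rw [hs, hζ.pow_eq_one_iff_dvd] at h1
    exact hi h1
  have hρs1 : ρ ⟨s, hsA⟩ ≠ 1 := by
    intro h1
    have := hpow 1 (by rw [pow_one, h1])
    exact hN.one_lt.ne' (Nat.dvd_one.mp this)
  have hv1s : A.valuation (1 - s) = 1 := by
    refine le_antisymm ((A.valuation_le_one_iff _).mpr (A.sub_mem A.one_mem hsA)) ?_
    by_contra hlt
    rw [not_le] at hlt
    have h2 : ρ (1 - ⟨s, hsA⟩) = 0 := (hρ0 _).mpr hlt
    rw [map_sub, map_one, sub_eq_zero] at h2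
    exact hρs1 h2.symm
  have hcA : s / (1 - s) ^ 2 ∈ A := by
    have h1 : A.valuation (s / (1 - s) ^ 2) = A.valuation s / A.valuation (1 - s) ^ 2 := by
      rw [map_div₀, map_pow A.valuation (1 - s)]
    rw [← A.valuation_le_one_iff, h1, hv1s, hvs, one_pow, div_one]
  have hrA : (r : Qb) ∈ A := by
    have h2 : (r : Qb) - s / (1 - s) ^ 2 ∈ A := (A.valuation_le_one_iff _).mp h.le
    have h3 := A.add_mem _ _ h2 hcA
    rwa [sub_add_cancel] at h3
  -- the value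
  have hc : ρ ⟨(r : Qb), hrA⟩ = ρ ⟨s, hsA⟩ / (1 - ρ ⟨s, hsA⟩) ^ 2 := by
    have h1 : ρ ⟨(r : Qb), hrA⟩ = ρ ⟨s / (1 - s) ^ 2, hcA⟩ := by
      rw [← sub_eq_zero, ← map_sub]
      exact (hρ0 _).mpr h
    rw [h1, eq_div_iff (pow_ne_zero 2 (sub_ne_zero.mpr hρs1.symm)), ← map_one ρ, ← map_sub,
      ← map_pow, ← map_mul]
    congr 1
    apply Subtype.ext
    change s / (1 - s) ^ 2 * (1 - s) ^ 2 = s
    exact div_mul_cancel₀ _ (pow_ne_zero 2 (sub_ne_zero.mpr hs1.symm))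
  -- rationality
  have hr : ρ ⟨(r : Qb), hrA⟩ ^ l = ρ ⟨(r : Qb), hrA⟩ := by
    have h1 : ((r.den : ℕ) : κ) * ρ ⟨(r : Qb), hrA⟩ = ((r.num : ℤ) : κ) := by
      rw [← map_natCast ρ, ← map_intCast ρ, ← map_mul]
      congr 1
      apply Subtype.ext
      change ((r.den : ℕ) : Qb) * (r : Qb) = ((r.num : ℤ) : Qb)
      have := Rat.den_mul_eq_num r
      exact_mod_cast this
    have h2 : ((r.den : ℕ) : κ) ≠ 0 := by
      intro h0
      have h3 : l ∣ r.den := (CharP.cast_eq_zero_iff κ l r.den).mp h0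
      rw [h0, zero_mul] at h1
      have h4 : (l : ℤ) ∣ r.num := (CharP.intCast_eq_zero_iff κ l r.num).mp h1.symm
      have h5 : l ∣ r.num.natAbs := Int.natCast_dvd.mp h4
      exact hl.one_lt.ne' (Nat.eq_one_of_dvd_coprimes r.reduced h5 h3)
    have h3 := congrArg (frobenius κ l) h1
    rw [map_mul, map_natCast, map_intCast, frobenius_def, ← h1] at h3
    exact mul_left_cancel₀ h2 h3
  have hF : ρ ⟨s, hsA⟩ ^ l / (1 - ρ ⟨s, hsA⟩ ^ l) ^ 2 = ρ ⟨s, hsA⟩ / (1 - ρ ⟨s, hsA⟩) ^ 2 := by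
    rw [← hc, ← hr, hc]
    have h1 : ∀ x : κ, x ^ l = frobenius κ l x := fun x => (frobenius_def (R := κ) l x).symm
    rw [h1, h1, map_div₀, map_pow, map_sub, map_one]
  have hsl : ρ ⟨s, hsA⟩ ^ l ≠ 1 := by
    intro h1
    exact hNl ((Nat.prime_dvd_prime_iff_eq hN hl).mp (hpow l h1))
  have h2l : 1 ≤ l := hl.one_lt.le
  have hfac : l ^ 2 - 1 = (l + 1) * (l - 1) := by
    have := Nat.sq_sub_sq l 1
    rwa [one_pow] at this
  rw [hfac]
  have hs0 : ρ ⟨s, hsA⟩ ≠ 0 := by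
    intro h0
    have h1 := (hρ0 _).mp h0
    exact h1.ne hvs
  rcases c_eq hsl hρs1 hF with h1 | h1
  · refine dvd_mul_of_dvd_right (hpow (l - 1) ?_) _
    have h2 : ρ ⟨s, hsA⟩ ^ (l - 1) * ρ ⟨s, hsA⟩ = 1 * ρ ⟨s, hsA⟩ := by
      rw [← pow_succ, Nat.sub_add_cancel h2l, h1, one_mul]
    exact mul_right_cancel₀ hs0 h2
  · exact dvd_mul_of_dvd_left (hpow (l + 1) (by rw [pow_succ, h1])) _

end Fermat.Agent.MX
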