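import Fermat.Agent.MX.B7a
import Fermat.Agent.Mzr.Cusps
import Fermat.Agent.Mzr.PairG

/-!
The rational point of `X₀(N)` attached to a rational torsion point, near the cusps.
-/

set_option autoImplicit false
set_option linter.unusedSectionVars false

noncomputable section

namespace Fermat.Agent.MX

open AlgebraicCurve IntermediateField
open Fermat.Agent.FunField Fermat.Agent.Flat Fermat.Agent.LG Fermat.Agent.ModFun
open Fermat.Agent.WP hiding X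
open Fermat.Agent.Mzr Fermat.Agent.Tor Fermat.Agent.EC
open Fermat.Agent.ESCore (ιC HauptFn haupt2 haupt3)
open WeierstrassCurve WeierstrassCurve.Affine

/-- The field of algebraic numbers. -/
local notation "Qb" => AlgebraicClosure ℚ
/-- The absolute Galois group. -/
local notation "GQ" => (AlgebraicClosure ℚ ≃ₐ[ℚ] AlgebraicClosure ℚ)

section Curve

variable {W : WeierstrassCurve ℤ}

theorem exists_rat {z : Qb} (h : ∀ σ : GQ, σ z = z) : ∃ r : ℚ, z = (r : Qb) := by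
  have h1 : z ∈ (⊥ : IntermediateField ℚ Qb) := (InfiniteGalois.mem_bot_iff_fixed z).mpr h
  rw [IntermediateField.mem_bot] at h1
  obtain ⟨r, hr⟩ := h1
  exact ⟨r, by rw [← hr, eq_ratCast]⟩

theorem v_c₄ {l : ℕ} (hl : l.Prime) {A : ValuationSubring Qb} (hA : A.LiesOverPrime l)
    (hc : ¬ (l : ℤ) ∣ W.c₄) : A.valuation ((W.map (Int.castRingHom ℚ))⁄Qb).c₄ = 1 := by
  rw [RT.ss_c₄]
  exact v_int_eq_one hl hA hc

theorem v_Δ {l : ℕ} {A : ValuationSubring Qb} (hA : A.LiesOverPrime l)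
    (hd : (l : ℤ) ∣ W.Δ) : A.valuation ((W.map (Int.castRingHom ℚ))⁄Qb).Δ < 1 := by
  rw [RT.ss_Δ]
  exact RT.v_int_lt hA hd

theorem v_j [(W.map (Int.castRingHom ℚ)).IsElliptic] {l : ℕ} (hl : l.Prime)
    {A : ValuationSubring Qb} (hA : A.LiesOverPrime l)
    (hd : (l : ℤ) ∣ W.Δ) (hc : ¬ (l : ℤ) ∣ W.c₄) :
    1 < A.valuation ((((W.map (Int.castRingHom ℚ)).j : ℚ)) : Qb) := by
  have h1 := j_mul_Δ (W := W)
  have h2 : (((W.map (Int.castRingHom ℚ)).j : ℚ) : Qb) * ((W.Δ : ℤ) : Qb) =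
      ((W.c₄ : ℤ) : Qb) ^ 3 := by exact_mod_cast congrArg (fun x : ℚ => (x : Qb)) h1
  have h3 := congrArg A.valuation h2
  rw [map_mul, map_pow, v_int_eq_one hl hA hc, one_pow] at h3
  have h4 : A.valuation ((W.Δ : ℤ) : Qb) < 1 := RT.v_int_lt hA hd
  by_contra h5
  rw [not_lt] at h5
  have h6 := mul_le_mul' h5 h4.le
  have h7 : A.valuation (((W.map (Int.castRingHom ℚ)).j : ℚ) : Qb) *
      A.valuation ((W.Δ : ℤ) : Qb) < 1 :=
    (mul_le_mul' h5 le_rfl).trans_lt (by rwa [one_mul])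
  rw [h3] at h7
  exact lt_irrefl _ h7

theorem v_xc {l N : ℕ} (hl : l.Prime) (hlN : ¬ l ∣ N) {A : ValuationSubring Qb}
    (hA : A.LiesOverPrime l)
    {Q : ((W.map (Int.castRingHom ℚ))⁄(AlgebraicClosure ℚ)).Point}
    (hQ : N • Q = 0) : A.valuation (xc Q) ≤ 1 := by
  rcases Q with _ | ⟨x, y, h⟩
  · change A.valuation 0 ≤ 1
    rw [map_zero]
    exact zero_le
  · exact integral_of_torsion (RT.ss_vint W A) (v_nat_eq_one hl hA hlN) hQ

theorem v_Xs_le {l N : ℕ} (hl : l.Prime) (hlN : ¬ l ∣ N) {A : ValuationSubring Qb}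
    (hA : A.LiesOverPrime l) (hd : (l : ℤ) ∣ W.Δ) (hc : ¬ (l : ℤ) ∣ W.c₄)
    {Q : ((W.map (Int.castRingHom ℚ))⁄(AlgebraicClosure ℚ)).Point}
    (hQ : N • Q = 0) : A.valuation (Xs ((W.map (Int.castRingHom ℚ))⁄Qb) Q) ≤ 1 := by
  rw [v_Xs (v_c₄ hl hA hc) (v_Δ hA hd)]
  exact v_sub_le (v_xc hl hlN hA hQ) ((RT.ss_vint W A).nodeX_le (v_c₄ hl hA hc))

end Curve

section Final

variable {N : ℕ} [hNp : Fact N.Prime] [NeZero N] {W : WeierstrassCurve ℤ}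

theorem PQ_eval (W : WeierstrassCurve ℚ) {Q : (W⁄Qb).Point} :
    (PQ N W Q).eval (Xs (W⁄Qb) Q) = 0 := by
  have h1 : ZMod.val ((1 : (ZMod N)ˣ) : ZMod N) = 1 := by
    have : Fact (1 < N) := ⟨hNp.out.one_lt⟩
    rw [Units.val_one, ZMod.val_one]
  rw [PQ, Polynomial.eval_prod]
  refine Finset.prod_eq_zero (Finset.mem_univ 1) ?_
  rw [h1, one_smul, Polynomial.eval_sub, Polynomial.eval_X, Polynomial.eval_C, sub_self]

/-- The near-cusp data at a prime. -/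
theorem local_data {p : ℕ} [hp : Fact p.Prime] {κ : ℤ} {M : ℕ} [NeZero M]
    {H : HauptFn p κ} {a b : ℤ} (h : HRel H a b) (hM : M = N * p) (hne : N ≠ p) (hpM : p ∣ M)
    (hNM : N ∣ M) {ζ : Qbˣ}
    (hζ : ιC ζ = Complex.exp (2 * Real.pi * Complex.I / N))
    (hΔ : W.Δ ≠ 0) [(W.map (Int.castRingHom ℚ)).IsElliptic]
    (hj1 : (W.map (Int.castRingHom ℚ)).j ≠ 1728)
    {Q : ((W.map (Int.castRingHom ℚ))⁄(AlgebraicClosure ℚ)).Point}
    (hQfix : ∀ σ : AlgebraicClosure ℚ ≃ₐ[ℚ] AlgebraicClosure ℚ, σ • Q = Q)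
    (hQ : addOrderOf Q = N)
    {x : Place Qb (F0 Qb N)} (hfix : ∀ σ : GQ, galF0 N σ • x = x)
    (hx : 0 < x.ord (jF Qb N - algebraMap Qb (F0 Qb N)
        (algebraMap ℚ Qb (W.map (Int.castRingHom ℚ)).j)))
    (hP : ∀ k, (HS hNp.out.one_lt hζ).coeff k ∈ x.toValuationSubring ∧
        evp x ((HS hNp.out.one_lt hζ).coeff k) = (PQ N (W.map (Int.castRingHom ℚ)) Q).coeff k)
    {l : ℕ} (hl : l.Prime) (hlN : l ≠ N) (hd : (l : ℤ) ∣ W.Δ) (hc : ¬ (l : ℤ) ∣ W.c₄)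
    {A : ValuationSubring Qb} (hA : A.LiesOverPrime l) (hV : ValM A M (tF H hpM)⁻¹) :
    (W.InZeroComponentAt A Q → Near A N (jF Qb N)⁻¹ x (cInf N) ∧ N ∣ l ^ 2 - 1) ∧
    (¬ W.InZeroComponentAt A Q → Near A N (jF Qb N)⁻¹ x (cZero N) ∧
      ∃ x' c' : Place Qb (F0 Qb M), Abv (incM hNM) x' x ∧ Abv (incM hNM) c' (cZero N) ∧
        (∀ σ ∈ A.decompositionSubgroup ℚ, galF0 M σ • x' = x') ∧
        (∀ σ : GQ, galF0 M σ • c' = c') ∧
        (∃ c : A, 0 < x'.ord ((tF H hpM)⁻¹ - algebraMap Qb _ (c : Qb))) ∧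
        (∃ c : A, 0 < c'.ord ((tF H hpM)⁻¹ - algebraMap Qb _ (c : Qb))) ∧
        Near A M (tF H hpM)⁻¹ x' c') := by
  have hlN' : ¬ l ∣ N := fun h => hlN ((Nat.prime_dvd_prime_iff_eq hl hNp.out).mp h)
  have hQ0 : N • Q = 0 := hQ ▸ addOrderOf_nsmul_eq_zero Q
  have hQne : Q ≠ 0 := by
    rintro rfl
    rw [addOrderOf_zero] at hQ
    exact hNp.out.one_lt.ne hQ
  obtain ⟨B⟩ := nonempty_bez ((Nat.coprime_primes hNp.out hp.out).mpr hne)
  have hr := v_Xs_le (W := W) hl hlN' hA hd hc hQ0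
  set r := Xs ((W.map (Int.castRingHom ℚ))⁄Qb) Q with hrdef
  have hz : W.InZeroComponentAt A Q ↔ 1 ≤ A.valuation r :=
    inZeroComponentAt_iff (v_c₄ hl hA hc) (v_Δ hA hd) hΔ hQne (v_xc hl hlN' hA hQ0)
  have hx' : 0 < x.ord (jF Qb N - algebraMap Qb (F0 Qb N)
      (((W.map (Int.castRingHom ℚ)).j : ℚ) : Qb)) := by
    rw [← eq_ratCast (algebraMap ℚ Qb)]
    exact hx
  obtain ⟨h1, h2⟩ := core h hM hne hpM hNM hV hl hA hlN' hNp.out.one_lt hζ B hx'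
    (v_j hl hA hd hc) hj1 hfix hP hr (PQ_eval _)
  constructor
  · intro h3
    obtain ⟨h4, u, hu⟩ := h1 (hz.mp h3)
    refine ⟨h4, ?_⟩
    obtain ⟨r0, hr0⟩ := exists_rat (z := r) fun σ => by
      have h5 := Xs_gal (W.map (Int.castRingHom ℚ)) σ Q
      have h6 : Affine.Point.map (W' := W.map (Int.castRingHom ℚ)) σ.toAlgHom Q = Q := hQfix σ
      rw [h6] at h5
      exact h5.symm
    have h7 : IsPrimitiveRoot (ζ : Qb) N := by
      have h8 := Complex.isPrimitiveRoot_exp N (NeZero.ne N)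
      rw [← hζ] at h8
      exact IsPrimitiveRoot.of_map_of_injective (f := ιC) h8 ιC.injective
    refine dvd_sq_sub_one hNp.out hl hlN.symm hA h7 (i := ZMod.val (u : ZMod N)) ?_ (r := r0) ?_
    · intro h8
      have h9 := val_pos hNp.out.one_lt u
      exact absurd (Nat.le_of_dvd h9 h8) (not_le.mpr (ZMod.val_lt _))
    · rw [← hr0]
      exact hu
  · intro h3
    rw [hz, not_le] at h3
    obtain ⟨h4, x', h5, h6, h7, h8⟩ := h2 h3
    refine ⟨h4, x', cW B hM, h5, abv_cW B hM hNM, h6, galF0_cW B hM, h7, ⟨0, ?_⟩, h8⟩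
    rw [ZeroMemClass.coe_zero, map_zero, sub_zero, Place.ord_inv, cW_ord_T]
    have := hNp.out.pos
    omega

theorem not_dvd_mul {l N r : ℕ} (hl : l.Prime) (hN : N.Prime) (hr : r.Prime) (h1 : l ≠ N)
    (h2 : l ≠ r) : ¬ l ∣ N * r := by
  intro h
  rcases hl.dvd_mul.mp h with h3 | h3
  · exact h1 ((Nat.prime_dvd_prime_iff_eq hl hN).mp h3)
  · exact h2 ((Nat.prime_dvd_prime_iff_eq hl hr).mp h3)

/-- **The rational place attached to a rational torsion point in Mazur's argument.** -/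
theorem exists_x (hN3 : 3 < N) (hΔ : W.Δ ≠ 0)
    {Q : ((W.map (Int.castRingHom ℚ))⁄(AlgebraicClosure ℚ)).Point}
    (hQfix : ∀ σ : AlgebraicClosure ℚ ≃ₐ[ℚ] AlgebraicClosure ℚ, σ • Q = Q)
    (hQ : addOrderOf Q = N)
    (h2Δ : (2 : ℤ) ∣ W.Δ) (h2c₄ : ¬ (2 : ℤ) ∣ W.c₄)
    (h2 : ∀ A : ValuationSubring (AlgebraicClosure ℚ), A.LiesOverPrime 2 →
      ¬ W.InZeroComponentAt A Q)
    (h3Δ : (3 : ℤ) ∣ W.Δ) (h3c₄ : ¬ (3 : ℤ) ∣ W.c₄)
    (h3 : ∀ A : ValuationSubring (AlgebraicClosure ℚ), A.LiesOverPrime 3 →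
      ¬ W.InZeroComponentAt A Q) :
    ∃ x : FixPl N,
      (∀ A : ValuationSubring Qb, A.LiesOverPrime 2 →
        ∃ x' c' : FPl (N * 3) (A.decompositionSubgroup ℚ),
          Abv (incM (dvd_mul_right N 3)) x'.pl x.pl ∧
          Abv (incM (dvd_mul_right N 3)) c'.pl (cO : FixPl N).pl ∧
          (∃ c : A, 0 < x'.pl.ord ((tF haupt3 (dvd_mul_left 3 N))⁻¹ -
            algebraMap Qb _ (c : Qb))) ∧
          (∃ c : A, 0 < c'.pl.ord ((tF haupt3 (dvd_mul_left 3 N))⁻¹ -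
            algebraMap Qb _ (c : Qb))) ∧
          Near A (N * 3) (tF haupt3 (dvd_mul_left 3 N))⁻¹ x'.pl c'.pl) ∧
      (∀ A : ValuationSubring Qb, A.LiesOverPrime 3 →
        ∃ x' c' : FPl (N * 2) (A.decompositionSubgroup ℚ),
          Abv (incM (dvd_mul_right N 2)) x'.pl x.pl ∧
          Abv (incM (dvd_mul_right N 2)) c'.pl (cO : FixPl N).pl ∧
          (∃ c : A, 0 < x'.pl.ord ((tF haupt2 (dvd_mul_left 2 N))⁻¹ -
            algebraMap Qb _ (c : Qb))) ∧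
          (∃ c : A, 0 < c'.pl.ord ((tF haupt2 (dvd_mul_left 2 N))⁻¹ -
            algebraMap Qb _ (c : Qb))) ∧
          Near A (N * 2) (tF haupt2 (dvd_mul_left 2 N))⁻¹ x'.pl c'.pl) ∧
      (∀ l : ℕ, l.Prime → 5 ≤ l → l ≠ N → (l : ℤ) ∣ W.Δ → ¬ (l : ℤ) ∣ W.c₄ →
        ∀ A : ValuationSubring Qb, A.LiesOverPrime l → W.InZeroComponentAt A Q →
          N ∣ l ^ 2 - 1 ∧
          (∃ c : A, 0 < x.pl.ord ((jF Qb N)⁻¹ - algebraMap Qb _ (c : Qb))) ∧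
          0 ≤ (cI : FixPl N).pl.ord (jF Qb N)⁻¹ ∧
          Near A N (jF Qb N)⁻¹ x.pl (cI : FixPl N).pl) := by
  have hell : (W.map (Int.castRingHom ℚ)).IsElliptic := isElliptic_of_int hΔ
  obtain ⟨ζ, hζ⟩ := exists_zetaΩ ιC N
  obtain ⟨x, hfix, hx, hP⟩ := exists_xpt_int hNp.out.one_lt hζ W h2c₄ hQfix hQ
  have hj1 := j_ne_1728_of_int (W := W) h2c₄
  have hN2 : N ≠ 2 := by omega
  have hN3' : N ≠ 3 := by omega
  refine ⟨⟨x, hfix⟩, ?_, ?_, ?_⟩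
  · intro A hA
    have hV : ValM A (N * 3) (tF haupt3 (dvd_mul_left 3 N))⁻¹ :=
      valM3 Nat.prime_two hA (by norm_num)
        (not_dvd_mul Nat.prime_two hNp.out Nat.prime_three hN2.symm (by norm_num)) _
    obtain ⟨-, h5⟩ := local_data hrel3 rfl hN3' (dvd_mul_left 3 N) (dvd_mul_right N 3) hζ hΔ hj1
      hQfix hQ hfix hx hP Nat.prime_two hN2.symm h2Δ h2c₄ hA hV
    obtain ⟨-, x', c', h6, h7, h8, h9, h10, h11, h12⟩ := h5 (h2 A hA)
    exact ⟨⟨x', h8⟩, ⟨c', fun σ _ => h9 σ⟩, h6, h7, h10, h11, h12⟩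
  · intro A hA
    have hV : ValM A (N * 2) (tF haupt2 (dvd_mul_left 2 N))⁻¹ :=
      valM2 Nat.prime_three hA (by norm_num)
        (not_dvd_mul Nat.prime_three hNp.out Nat.prime_two hN3'.symm (by norm_num)) _
    obtain ⟨-, h5⟩ := local_data hrel2 rfl hN2 (dvd_mul_left 2 N) (dvd_mul_right N 2) hζ hΔ hj1
      hQfix hQ hfix hx hP Nat.prime_three hN3'.symm h3Δ h3c₄ hA hV
    obtain ⟨-, x', c', h6, h7, h8, h9, h10, h11, h12⟩ := h5 (h3 A hA)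
    exact ⟨⟨x', h8⟩, ⟨c', fun σ _ => h9 σ⟩, h6, h7, h10, h11, h12⟩
  · intro l hl hl5 hlN hd hc A hA hz
    have hV : ValM A (N * 2) (tF haupt2 (dvd_mul_left 2 N))⁻¹ :=
      valM2 hl hA (by omega)
        (not_dvd_mul hl hNp.out Nat.prime_two hlN (by omega)) _
    obtain ⟨h5, -⟩ := local_data hrel2 rfl hN2 (dvd_mul_left 2 N) (dvd_mul_right N 2) hζ hΔ hj1
      hQfix hQ hfix hx hP hl hlN hd hc hA hV
    obtain ⟨h6, h7⟩ := h5 hz
    have h8 := v_j (W := W) hl hA hd hc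
    have hj0 : (((W.map (Int.castRingHom ℚ)).j : ℚ) : Qb) ≠ 0 := by
      intro h0
      rw [h0, map_zero] at h8
      exact absurd h8 (not_lt.mpr zero_le)
    have hcv : A.valuation (((W.map (Int.castRingHom ℚ)).j : ℚ) : Qb)⁻¹ < 1 := by
      rw [map_inv₀]
      exact inv_lt_one_of_one_lt₀ h8
    rw [eq_ratCast] at hx
    refine ⟨h7, ⟨⟨_, (A.valuation_le_one_iff _).mp hcv.le⟩,
      (ord_inv_sub (sep_jF hζ).trans hj0 hx).2⟩, ?_, h6⟩
    change 0 ≤ (cInf N).ord (jF Qb N)⁻¹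
    rw [Place.ord_inv, cInf_ord_jF]
    norm_num

end Final

end Fermat.Agent.MX
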