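import Fermat.Agent.MX.Rst
import Fermat.Agent.Flat.Conc6
import Fermat.Agent.WP.Pl
import Fermat.Agent.LG.WQ2
import Fermat.Agent.Gamma0Comb.Psi

/-!
Cusps and degrees.
-/

set_option autoImplicit false
set_option linter.unusedSectionVars false

noncomputable section

namespace Fermat.Agent.MX

open AlgebraicCurve IsDedekindDomain IntermediateField WithZero Module Fermat.Agent.FunField
open Fermat.Agent.Flat Fermat.Agent.LG Fermat.Agent.ModFun

section Emb

variable {K F : Type*} [Field K] [Field F] [Algebra K F]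

theorem ordFn_emb (θ : F →+* LaurentSeries K)
    (hθ : ∀ a, θ (algebraMap K F a) = HahnSeries.C a) (h1 : ∃ f, (θ f).order ≠ 0) :
    OrdFn K (fun f => (θ f).order) where
  mul f g hf hg := by
    rw [map_mul, HahnSeries.order_mul ((_root_.map_ne_zero θ).mpr hf)
      ((_root_.map_ne_zero θ).mpr hg)]
  add f g hf hg hfg := by
    have h2 := (_root_.map_ne_zero θ).mpr hfg
    rw [map_add] at h2 ⊢
    exact HahnSeries.min_order_le_order_add h2
  const a ha := by
    rw [hθ, HahnSeries.order_C]
  nt := by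
    obtain ⟨f, hf⟩ := h1
    refine ⟨f, ?_, hf⟩
    rintro rfl
    rw [map_zero, HahnSeries.order_zero] at hf
    exact hf rfl

/-- The place attached to an embedding into Laurent series. -/
theorem exists_place_emb (θ : F →+* LaurentSeries K)
    (hθ : ∀ a, θ (algebraMap K F a) = HahnSeries.C a) {f₁ : F} (h1 : (θ f₁).order = -1) :
    ∃ v : Place K F, ∀ f, v.ord f = (θ f).order := by
  have h := ordFn_emb θ hθ ⟨f₁, by rw [h1]; norm_num⟩
  obtain ⟨v, e, he, -, hv⟩ := h.exists_place
  have hf₁ : f₁ ≠ 0 := by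
    rintro rfl
    rw [map_zero, HahnSeries.order_zero] at h1
    norm_num at h1
  have h2 := hv f₁ hf₁
  rw [h1] at h2
  have h3 : e = 1 := by
    have h4 : (e : ℤ) ∣ 1 := ⟨-v.ord f₁, by linarith⟩
    have h5 := Int.eq_one_of_dvd_one (Int.natCast_nonneg e) h4
    exact_mod_cast h5
  refine ⟨v, fun f => ?_⟩
  by_cases hf : f = 0
  · rw [hf, map_zero, v.ord_zero, HahnSeries.order_zero]
  · have h6 := hv f hf
    rw [h3] at h6
    simpa using h6.symm

theorem evp_emb {θ : F →+* LaurentSeries K}
    (hθ : ∀ a, θ (algebraMap K F a) = HahnSeries.C a) {v : Place K F}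
    (hv : ∀ f, v.ord f = (θ f).order) {f : F} (hf : 0 ≤ v.ord f) :
    evp v f = (θ f).coeff 0 := by
  apply evp_unique
  rw [adicValuation_lt_one_iff]
  by_cases h0 : f - algebraMap K F ((θ f).coeff 0) = 0
  · exact Or.inl h0
  right
  have h1 : 0 ≤ v.ord (f - algebraMap K F ((θ f).coeff 0)) :=
    ord_nonneg_of_mem v (sub_mem (mem_of_ord_nonneg v hf) (v.algebraMap_mem' _))
  rcases h1.lt_or_eq with h2 | h2
  · exact h2
  exfalso
  rw [hv] at h2
  have h3 : θ (f - algebraMap K F ((θ f).coeff 0)) ≠ 0 := (_root_.map_ne_zero θ).mpr h0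
  have h4 := HahnSeries.coeff_order_eq_zero.not.2 h3
  rw [← h2, map_sub, hθ, HahnSeries.coeff_sub, HahnSeries.C_apply, HahnSeries.coeff_single_same,
    sub_self] at h4
  exact h4 rfl

end Emb

section Rel

variable {K F : Type*} [Field K] [Field F] [Algebra K F] {T j : F} {k : ℕ} {a b : K}

theorem ord_add_const_neg (v : Place K F) {x : F} (hx : v.ord x < 0) (c : K) :
    v.ord (x + algebraMap K F c) = v.ord x := by
  have := ord_sub_of_neg v hx (-c)
  rwa [map_neg, sub_neg_eq_add] at this

theorem ord_add_const_pos (v : Place K F) {x : F} (hx : 0 < v.ord x) {c : K} (hc : c ≠ 0) :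
    v.ord (x + algebraMap K F c) = 0 := by
  have h0 : 0 ≤ v.ord (x + algebraMap K F c) :=
    ord_nonneg_of_mem v (add_mem (mem_of_ord_nonneg v hx.le) (v.algebraMap_mem' _))
  rcases h0.lt_or_eq with h1 | h1
  · exfalso
    have h2 : v.adicValuation (x + algebraMap K F c) < 1 := by
      rw [adicValuation_lt_one_iff]; exact Or.inr h1
    have h3 : v.adicValuation x < 1 := by
      rw [adicValuation_lt_one_iff]; exact Or.inr hx
    have h4 : v.adicValuation (algebraMap K F c) < 1 := by
      have : algebraMap K F c = (x + algebraMap K F c) - x := by ring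
      rw [this]
      exact (Valuation.map_sub _ _ _).trans_lt (max_lt h2 h3)
    rw [adicValuation_lt_one_iff, ord_algebraMap] at h4
    rcases h4 with h4 | h4
    · rw [map_eq_zero] at h4; exact hc h4
    · exact lt_irrefl _ h4
  · exact h1.symm

theorem add_const_ne_zero (hT : Transcendental K T) (c : K) : T + algebraMap K F c ≠ 0 := by
  intro h0
  have := Flat.transcendental_sub hT (-c)
  rw [map_neg, sub_neg_eq_add, h0] at this
  exact this isAlgebraic_zero

variable (hrel : j * T ^ k = (T + algebraMap K F a) * (T + algebraMap K F b) ^ k)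
  (hT : Transcendental K T)

include hrel hT

theorem j_ne_zero : j ≠ 0 := by
  rintro rfl
  rw [zero_mul] at hrel
  exact mul_ne_zero (add_const_ne_zero hT a) (pow_ne_zero k (add_const_ne_zero hT b)) hrel.symm

theorem ord_rel (v : Place K F) : v.ord j + k * v.ord T =
    v.ord (T + algebraMap K F a) + k * v.ord (T + algebraMap K F b) := by
  have hT0 : T ≠ 0 := by
    have := add_const_ne_zero hT 0
    rwa [map_zero, add_zero] at this
  have h := congrArg v.ord hrel
  rwa [v.ord_mul (j_ne_zero hrel hT) (pow_ne_zero k hT0), Flat.ord_pow,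
    v.ord_mul (add_const_ne_zero hT a) (pow_ne_zero k (add_const_ne_zero hT b)), Flat.ord_pow] at h

theorem ord_j_neg {v : Place K F} (hv : v.ord T < 0) : v.ord j = v.ord T := by
  have h := ord_rel hrel hT v
  rw [ord_add_const_neg v hv, ord_add_const_neg v hv] at h
  linarith

theorem ord_j_pos (ha : a ≠ 0) (hb : b ≠ 0) {v : Place K F} (hv : 0 < v.ord T) :
    v.ord j = -(k * v.ord T) := by
  have h := ord_rel hrel hT v
  rw [ord_add_const_pos v hv ha, ord_add_const_pos v hv hb] at h
  linarith

theorem ord_j_zero {v : Place K F} (hv : v.ord T = 0) : 0 ≤ v.ord j := by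
  have h := ord_rel hrel hT v
  have h1 : ∀ c : K, 0 ≤ v.ord (T + algebraMap K F c) := fun c =>
    ord_nonneg_of_mem v (add_mem (mem_of_ord_nonneg v hv.ge) (v.algebraMap_mem' _))
  rw [hv, mul_zero, add_zero] at h
  rw [h]
  have h2 := h1 a
  have h3 := mul_nonneg (Int.natCast_nonneg k) (h1 b)
  linarith

/-- the degree over the `j`-line -/
theorem finrank_rel [IsAlgClosed K] (ha : a ≠ 0) (hb : b ≠ 0) (hsT : Sep K T) (hsj : Sep K j) :
    finrank K⟮j⟯ F = (k + 1) * finrank K⟮T⟯ F := by
  have h1 : pol (K := K) j = pol (K := K) T + k • pol (K := K) T⁻¹ := by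
    ext v
    rw [Finsupp.add_apply, Finsupp.smul_apply, pol_apply (hsT.finOrd _), pol_apply (hsT.finOrd _),
      pol_apply (hsT.finOrd _), v.ord_inv, neg_neg, nsmul_eq_mul]
    rcases lt_trichotomy (v.ord T) 0 with h | h | h
    · rw [ord_j_neg hrel hT h, max_eq_left h.le, mul_zero, add_zero]
    · have := ord_j_zero hrel hT h
      rw [h, max_eq_left (by omega)]
      simp
    · rw [ord_j_pos hrel hT ha hb h, neg_neg, max_eq_left (by omega : -v.ord T ≤ 0),
        max_eq_right h.le, zero_add]
      exact max_eq_right (by positivity)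
  have h2 := congrArg dg h1
  rw [map_add, map_nsmul, hsj.dg_pol, hsT.dg_pol, hsT.inv.dg_pol, adjoin_inv_eq,
    nsmul_eq_mul] at h2
  have h3 : ((finrank K⟮j⟯ F : ℕ) : ℤ) = (((k + 1) * finrank K⟮T⟯ F : ℕ) : ℤ) := by
    rw [h2]; push_cast; ring
  exact_mod_cast h3

end Rel

/-- If two poles exhaust the degree, they are the only ones. -/
theorem two_poles {K F : Type*} [Field K] [Field F] [Algebra K F] [IsAlgClosed K] {x : F}
    (hx : Sep K x) {c₁ c₂ : Place K F} (hne : c₁ ≠ c₂) (h1 : c₁.ord x < 0) (h2 : c₂.ord x < 0)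
    (hsum : - c₁.ord x - c₂.ord x = finrank K⟮x⟯ F) {v : Place K F} (hv : v.ord x < 0) :
    v = c₁ ∨ v = c₂ := by
  classical
  obtain ⟨s, hs, hss, -⟩ := hx.aboveInf
  by_contra hcon
  rw [not_or] at hcon
  have hsub : ({c₁, c₂, v} : Finset (Place K F)) ⊆ s := by
    intro w hw
    rw [Finset.mem_insert, Finset.mem_insert, Finset.mem_singleton] at hw
    rw [hs]
    rcases hw with rfl | rfl | rfl
    · exact h1
    · exact h2
    · exact hv
  have h3 := Finset.sum_le_sum_of_subset_of_nonneg (f := fun w : Place K F => - w.ord x) hsub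
    (fun w hw _ => by have := (hs w).mp hw; omega)
  rw [hss, Finset.sum_insert (by
      rw [Finset.mem_insert, Finset.mem_singleton]
      rintro (h | h)
      · exact hne h
      · exact hcon.1 h.symm),
    Finset.sum_insert (by
      rw [Finset.mem_singleton]
      exact fun h => hcon.2 h.symm), Finset.sum_singleton, ← hsum] at h3
  omega

end Fermat.Agent.MX
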