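import Fermat.Agent.MX.Lv
import Fermat.Agent.WP.Lift
import Fermat.Agent.LG.ArL

/-!
The value of the Hauptmodul at the canonical lift.
-/

set_option autoImplicit false
set_option linter.unusedSectionVars false

noncomputable section

namespace Fermat.Agent.MX

open AlgebraicCurve IsDedekindDomain IntermediateField WithZero Module Fermat.Agent.FunField
open Fermat.Agent.Flat Fermat.Agent.LG Fermat.Agent.ModFun Fermat.Agent.WP
open Fermat.Agent.ESCore (ιC HauptFn haupt2 haupt3)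

/-- The field of algebraic numbers. -/
local notation "Qb" => AlgebraicClosure ℚ
/-- The absolute Galois group. -/
local notation "GQ" => (AlgebraicClosure ℚ ≃ₐ[ℚ] AlgebraicClosure ℚ)

section Root

variable {K : Type*} [Field K] [IsAlgClosed K] {Γ₀ : Type*} [LinearOrderedCommGroupWithZero Γ₀]
  (v : Valuation K Γ₀)

/-- a root near `1` -/
theorem exists_root_near {P : Polynomial K} (hP : P.Monic) (h1 : v (P.eval 1) < 1) :
    ∃ y, P.IsRoot y ∧ v (1 - y) < 1 := by
  by_contra hcon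
  push Not at hcon
  have hs := IsAlgClosed.splits P
  have h2 : P = (P.roots.map fun a => Polynomial.X - Polynomial.C a).prod :=
    (hs.eq_prod_roots_of_monic hP)
  have h3 : P.eval 1 = (P.roots.map fun a => 1 - a).prod := by
    conv_lhs => rw [h2]
    rw [Polynomial.eval_multiset_prod, Multiset.map_map]
    congr 1
    refine Multiset.map_congr rfl fun a _ => ?_
    simp
  rw [h3, map_multiset_prod, Multiset.map_map] at h1
  refine absurd h1 (not_lt.mpr ?_)
  refine Multiset.one_le_prod_of_one_le fun x hx => ?_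
  obtain ⟨a, ha, rfl⟩ := Multiset.mem_map.mp hx
  exact hcon a (Polynomial.isRoot_of_mem_roots ha)

end Root

section T0

variable {A : ValuationSubring Qb} {p : ℕ} {a b : ℤ} {j₀ : Qb}

theorem intCast_val_le (n : ℤ) : A.valuation (n : Qb) ≤ 1 :=
  (A.valuation_le_one_iff _).mpr (intCast_mem A n)

theorem exists_T0 (hj : 1 < A.valuation j₀) : ∃ T₀ : Qb, 1 < A.valuation T₀ ∧
    j₀ * T₀ ^ p = (T₀ + a) * (T₀ + b) ^ p := by
  have hj0 : j₀ ≠ 0 := by
    rintro rfl
    rw [map_zero] at hj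
    exact absurd hj (not_lt.mpr zero_le)
  set e : Qb := a / j₀ with he
  set d : Qb := b / j₀ with hd
  have hsm : ∀ n : ℤ, A.valuation ((n : Qb) / j₀) < 1 := by
    intro n
    rw [map_div₀]
    have h1 := intCast_val_le (A := A) n
    exact (div_lt_one₀ (lt_trans zero_lt_one hj)).mpr (lt_of_le_of_lt h1 hj)
  let P : Polynomial Qb := (Polynomial.X + Polynomial.C e) * (Polynomial.X + Polynomial.C d) ^ p -
    Polynomial.X ^ p
  have hP : P.Monic := by
    have h1 : ((Polynomial.X + Polynomial.C e) * (Polynomial.X + Polynomial.C d) ^ p :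
        Polynomial Qb).Monic :=
      (Polynomial.monic_X_add_C e).mul ((Polynomial.monic_X_add_C d).pow p)
    refine h1.sub_of_left ?_
    rw [Polynomial.degree_X_pow, Polynomial.degree_mul, Polynomial.degree_pow,
      Polynomial.degree_X_add_C, Polynomial.degree_X_add_C, nsmul_eq_mul, mul_one]
    have : ((p : ℕ) : WithBot ℕ) < ((1 + p : ℕ) : WithBot ℕ) := by exact_mod_cast (by omega : p < 1 + p)
    rw [Nat.cast_add, Nat.cast_one] at this
    exact this
  have hP1 : A.valuation (P.eval 1) < 1 := by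
    have h1 : P.eval 1 = (1 + e) * (1 + d) ^ p - 1 := by simp [P]
    have hd1 : A.valuation ((1 + d) - 1) < 1 := by rw [add_sub_cancel_left]; exact hsm b
    have hdA : d ∈ A := (A.valuation_le_one_iff _).mp (hsm b).le
    have heA : e ∈ A := (A.valuation_le_one_iff _).mp (hsm a).le
    have h2 : (1 + e) * (1 + d) ^ p - 1 = e * (1 + d) ^ p + ((1 + d) ^ p - 1) := by ring
    obtain ⟨w, hw⟩ : (⟨1 + d, add_mem (one_mem A) hdA⟩ : A) - 1 ∣ (⟨1 + d, add_mem (one_mem A) hdA⟩ : A) ^ p - 1 :=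
      sub_one_dvd_pow_sub_one _ _
    have h3 : (1 + d) ^ p - 1 = d * (w : Qb) := by
      have := congrArg (fun z : A => (z : Qb)) hw
      change (1 + d) ^ p - 1 = (1 + d - 1) * (w : Qb) at this
      rw [this, add_sub_cancel_left]
    rw [h1, h2, h3]
    refine (Valuation.map_add _ _ _).trans_lt (max_lt ?_ ?_)
    · rw [map_mul]
      have h4 : A.valuation ((1 + d) ^ p) ≤ 1 :=
        (A.valuation_le_one_iff _).mpr (pow_mem (add_mem (one_mem A) hdA) p)
      exact (mul_le_mul' le_rfl h4).trans_lt (by rw [mul_one]; exact hsm a)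
    · rw [map_mul]
      have h4 : A.valuation (w : Qb) ≤ 1 := (A.valuation_le_one_iff _).mpr w.2
      exact (mul_le_mul' le_rfl h4).trans_lt (by rw [mul_one]; exact hsm b)
  obtain ⟨y, hy, hy1⟩ := exists_root_near A.valuation hP hP1
  have hvy : A.valuation y = 1 := by
    have h1 : y = 1 - (1 - y) := by ring
    rw [h1]
    have h2 : A.valuation (1 - (1 - y)) = A.valuation (1 : Qb) :=
      Valuation.map_sub_eq_of_lt_left _ (by rw [map_one]; exact hy1)
    rw [h2, map_one]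
  refine ⟨j₀ * y, by rw [map_mul, hvy, mul_one]; exact hj, ?_⟩
  have h1 : (y + e) * (y + d) ^ p - y ^ p = 0 := by
    have h2 : P.eval y = 0 := hy
    simpa [P] using h2
  have e1 : j₀ * y + a = j₀ * (y + e) := by
    rw [he]
    field_simp
  have e2 : j₀ * y + b = j₀ * (y + d) := by
    rw [hd]
    field_simp
  rw [e1, e2, mul_pow, mul_pow]
  linear_combination -(j₀ * j₀ ^ p) * h1

theorem T0_unique {T T' : Qb} (hj : 1 < A.valuation j₀) (hT : 1 < A.valuation T)
    (hT' : 1 < A.valuation T') (h : j₀ * T ^ p = (T + a) * (T + b) ^ p)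
    (h' : j₀ * T' ^ p = (T' + a) * (T' + b) ^ p) : T = T' := by
  have hne : ∀ {x : Qb}, 1 < A.valuation x → x ≠ 0 := by
    rintro x hx rfl
    rw [map_zero] at hx
    exact absurd hx (not_lt.mpr zero_le)
  have hinv : ∀ {x : Qb}, 1 < A.valuation x → x⁻¹ ∈ A := by
    intro x hx
    rw [← A.valuation_le_one_iff, map_inv₀]
    exact (inv_lt_one_of_one_lt₀ hx).le
  have key : ∀ {x : Qb}, 1 < A.valuation x → j₀ * x ^ p = (x + a) * (x + b) ^ p →
      j₀ * x⁻¹ = (1 + a * x⁻¹) * (1 + b * x⁻¹) ^ p := by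
    intro x hx hx'
    have h0 := hne hx
    have e1 : (1 + (a : Qb) * x⁻¹) = (x + a) * x⁻¹ := by
      rw [add_mul, mul_inv_cancel₀ h0]
    have e2 : (1 + (b : Qb) * x⁻¹) = (x + b) * x⁻¹ := by
      rw [add_mul, mul_inv_cancel₀ h0]
    rw [e1, e2, mul_pow]
    have e3 : (x + (a : Qb)) * x⁻¹ * ((x + b) ^ p * x⁻¹ ^ p) =
        ((x + a) * (x + b) ^ p) * (x⁻¹ * x⁻¹ ^ p) := by ring
    rw [e3, ← hx', inv_pow]
    have h1 := pow_ne_zero p h0
    field_simp
  by_contra hTT
  set t : A := ⟨T⁻¹, hinv hT⟩ with ht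
  set t' : A := ⟨T'⁻¹, hinv hT'⟩ with ht'
  have htt : (t : Qb) - t' ≠ 0 := by
    intro h0
    apply hTT
    have h1 : T⁻¹ = T'⁻¹ := sub_eq_zero.mp h0
    exact inv_injective h1
  let P : Polynomial A := (1 + Polynomial.C (a : A) * Polynomial.X) *
    (1 + Polynomial.C (b : A) * Polynomial.X) ^ p
  have hev : ∀ s : A, ((P.eval s : A) : Qb) = (1 + a * (s : Qb)) * (1 + b * (s : Qb)) ^ p := by
    intro s
    simp [P]
  obtain ⟨w, hw⟩ := Polynomial.sub_dvd_eval_sub t t' P
  have h1 : ((P.eval t : A) : Qb) - (P.eval t' : A) = ((t : Qb) - t') * w := by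
    have := congrArg (fun z : A => (z : Qb)) hw
    exact this
  rw [hev, hev, ← key hT h, ← key hT' h', ← mul_sub] at h1
  have h2 : j₀ = w := by
    have h3 : (T⁻¹ - T'⁻¹ : Qb) ≠ 0 := htt
    have h4 : j₀ * (T⁻¹ - T'⁻¹) = w * (T⁻¹ - T'⁻¹) := by rw [h1, mul_comm]
    exact mul_right_cancel₀ h3 h4
  have h3 : A.valuation j₀ ≤ 1 := by rw [h2]; exact (A.valuation_le_one_iff _).mpr w.2
  exact absurd hj (not_lt.mpr h3)

theorem gt_of_dec {σ : GQ} (hσ : σ ∈ A.decompositionSubgroup ℚ) {x : Qb}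
    (hx : 1 < A.valuation x) : 1 < A.valuation (σ x) := by
  by_contra hcon
  push Not at hcon
  rw [A.valuation_le_one_iff] at hcon
  have h1 : (σ⁻¹ : GQ) (σ x) ∈ A := LG.Ar.mem_of_dec (inv_mem hσ) hcon
  have h2 : (σ⁻¹ : GQ) (σ x) = x := by
    rw [← AlgEquiv.mul_apply, inv_mul_cancel, AlgEquiv.one_apply]
  rw [h2, ← A.valuation_le_one_iff] at h1
  exact absurd hx (not_lt.mpr h1)

end T0

variable {p : ℕ} [hp : Fact p.Prime] {κ : ℤ} {N M : ℕ} [hN : Fact N.Prime] [NeZero N] [NeZero M]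
  {H : HauptFn p κ} {a b : ℤ}

theorem galF0_tF (hpM : p ∣ M) (σ : GQ) : galF0 M σ • tF H hpM = tF H hpM := by
  apply Subtype.ext
  rw [coe_galF0_smul, coe_tF]
  exact coeffMap_tS _ p κ

theorem galF0_incM (hNM : N ∣ M) (σ : GQ) (f : F0 Qb N) :
    galF0 M σ • incM hNM f = incM hNM (galF0 N σ • f) := by
  apply Subtype.ext
  rw [coe_galF0_smul, coe_incM, coe_incM, coe_galF0_smul]

theorem galF0_C' (σ : GQ) (c : Qb) : galF0 M σ • (algebraMap Qb (F0 Qb M) c) =
    algebraMap Qb (F0 Qb M) (σ c) := galRing_algebraMap M σ c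

theorem ord_gal (σ : GQ) (v : Place Qb (F0 Qb M)) (f : F0 Qb M) :
    (galF0 M σ • v).ord f = v.ord (galF0 M σ⁻¹ • f) := by
  have h1 := SemilinearAut.ord_smul (galF0 M σ) v (galF0 M σ⁻¹ • f)
  rw [smul_smul, ← map_mul, mul_inv_cancel, map_one, one_smul] at h1
  exact h1

theorem abv_gal (hNM : N ∣ M) (σ : GQ) {x' : Place Qb (F0 Qb M)} {x : Place Qb (F0 Qb N)}
    (h : Abv (incM hNM) x' x) : Abv (incM hNM) (galF0 M σ • x') (galF0 N σ • x) := by
  obtain ⟨e, he, h⟩ := h
  refine ⟨e, he, fun f => ?_⟩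
  rw [ord_gal, ord_gal, galF0_incM, h]

/-- **The canonical lift.** -/
theorem exists_fixed_lift (h : HRel H a b) (hM : M = N * p) (hNp : N ≠ p) (hpM : p ∣ M)
    (hNM : N ∣ M) (A : ValuationSubring Qb) {x : Place Qb (F0 Qb N)} {j₀ : ℚ}
    (hx : 0 < x.ord (jF Qb N - algebraMap Qb _ (j₀ : Qb))) (hj0 : 1 < A.valuation (j₀ : Qb))
    (hj1 : j₀ ≠ 1728) (hfix : ∀ σ : GQ, galF0 N σ • x = x) :
    ∃ (x' : Place Qb (F0 Qb M)) (T₀ : Qb), Abv (incM hNM) x' x ∧
      0 < x'.ord (tF H hpM - algebraMap Qb _ T₀) ∧ 1 < A.valuation T₀ ∧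
      ∀ σ ∈ A.decompositionSubgroup ℚ, galF0 M σ • x' = x' := by
  obtain ⟨T₀, hT₀, hrel⟩ := exists_T0 (A := A) (p := p) (a := a) (b := b) hj0
  have hne : ∀ {x : Qb}, 1 < A.valuation x → x ≠ 0 := by
    rintro x hx rfl
    rw [map_zero] at hx
    exact absurd hx (not_lt.mpr zero_le)
  have hj1' : (j₀ : Qb) ≠ 1728 := by
    intro h1
    apply hj1
    exact_mod_cast h1
  obtain ⟨x', h1, h2, h3⟩ := exists_lift H hN.out (Ne.symm hNp) (hM.trans (mul_comm N p))
    (F0_mono (K := Qb) hNM) hpM (h.relF hpM) (finrank_T h hM hNp hpM) hx (hne hj0) hj1'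
    (hne hT₀) hrel
  refine ⟨x', T₀, h1, h2, hT₀, fun σ hσ => ?_⟩
  have h4 := abv_gal hNM σ h1
  rw [hfix] at h4
  refine h3 _ h4 ?_
  have hσT : σ T₀ = T₀ := by
    refine T0_unique (A := A) (p := p) (a := a) (b := b) hj0 (gt_of_dec hσ hT₀) hT₀ ?_ hrel
    have := congrArg σ hrel
    rw [map_mul, map_pow, map_mul, map_pow, map_add, map_add, map_ratCast, map_intCast,
      map_intCast] at this
    exact this
  have h5 : galF0 M σ • (tF H hpM - algebraMap Qb (F0 Qb M) T₀) =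
      tF H hpM - algebraMap Qb (F0 Qb M) T₀ := by
    rw [smul_sub, galF0_tF, galF0_C', hσT]
  rw [← h5, SemilinearAut.ord_smul]
  exact h2

theorem galF0_cInfM (σ : GQ) : galF0 M σ • cInf M = cInf M := galF0_cInf σ

theorem galF0_cW (B : Bez N p) (hM : M = N * p) (σ : GQ) : galF0 M σ • cW B hM = cW B hM := by
  have key : ∀ (τ : GQ) (f : F0 Qb M), (cW B hM).ord (galF0 M τ • f) = (cW B hM).ord f := by
    intro τ f
    by_cases hf : f = 0
    · rw [hf, smul_zero]
    have h0 : θW B hM f ≠ 0 := (_root_.map_ne_zero _).mpr hf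
    rw [cW_ord, cW_ord, θW_gal]
    refine order_eq_of_coeff ?_ fun m hm => ?_
    · rw [ModularCurve.coeffMap_coeff]
      exact (_root_.map_ne_zero _).mpr (HahnSeries.coeff_order_eq_zero.not.2 h0)
    · rw [ModularCurve.coeffMap_coeff, HahnSeries.coeff_eq_zero_of_lt_order hm, map_zero]
  apply Place.ext
  ext f
  rw [mem_iff_ord_nonneg, mem_iff_ord_nonneg, ord_gal, key]

end Fermat.Agent.MX
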