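import Fermat.Agent.MX.Dec3
import Fermat.Agent.MX.T0
import Fermat.Agent.MX.Ar

/-!
The place of a torsion point near the cusps.
-/

set_option autoImplicit false
set_option linter.unusedSectionVars false

noncomputable section

namespace Fermat.Agent.MX

open AlgebraicCurve IntermediateField Polynomial
open Fermat.Agent.FunField Fermat.Agent.Flat Fermat.Agent.LG Fermat.Agent.ModFun
open Fermat.Agent.WP hiding X
open Fermat.Agent.Mzr Fermat.Agent.Tor
open Fermat.Agent.ESCore (ιC HauptFn haupt2 haupt3)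
open ModularCurve (qExpand jqModC)

/-- The field of algebraic numbers. -/
local notation "Qb" => AlgebraicClosure ℚ
/-- The absolute Galois group. -/
local notation "GQ" => (AlgebraicClosure ℚ ≃ₐ[ℚ] AlgebraicClosure ℚ)

section Core

variable {p : ℕ} [hp : Fact p.Prime] {κ : ℤ} {N M : ℕ} [hNp : Fact N.Prime] [NeZero N] [NeZero M]
  {H : HauptFn p κ} {a b : ℤ} {A : ValuationSubring Qb} {l : ℕ} {ζ : Qbˣ}

/-- **The place near the cusps**. -/
theorem core (h : HRel H a b) (hM : M = N * p) (hne : N ≠ p) (hpM : p ∣ M) (hNM : N ∣ M)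
    (hV : ValM A M (tF H hpM)⁻¹) (hl : l.Prime) (hA : A.LiesOverPrime l) (hlN : ¬ l ∣ N)
    (hN : 1 < N) (hζ : ιC ζ = Complex.exp (2 * Real.pi * Complex.I / N)) (B : Bez N p)
    {x : Place Qb (F0 Qb N)} {j₀ : ℚ} (hx : 0 < x.ord (jF Qb N - algebraMap Qb _ (j₀ : Qb)))
    (hj0 : 1 < A.valuation (j₀ : Qb)) (hj1 : j₀ ≠ 1728) (hfix : ∀ σ : GQ, galF0 N σ • x = x)
    {P : Polynomial Qb} (hP : ∀ k, (HS hN hζ).coeff k ∈ x.toValuationSubring ∧
      evp x ((HS hN hζ).coeff k) = P.coeff k) {r : Qb} (hr : A.valuation r ≤ 1)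
    (hPr : P.eval r = 0) :
    (1 ≤ A.valuation r → Near A N (jF Qb N)⁻¹ x (cInf N) ∧
      ∃ u : (ZMod N)ˣ, A.valuation (r - cK ζ (ZMod.val (u : ZMod N))) < 1) ∧
    (A.valuation r < 1 → Near A N (jF Qb N)⁻¹ x (cZero N) ∧
      ∃ x' : Place Qb (F0 Qb M), Abv (incM hNM) x' x ∧
        (∀ σ ∈ A.decompositionSubgroup ℚ, galF0 M σ • x' = x') ∧
        (∃ c : A, 0 < x'.ord ((tF H hpM)⁻¹ - algebraMap Qb _ (c : Qb))) ∧
        Near A M (tF H hpM)⁻¹ x' (cW B hM)) := by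
  obtain ⟨x', T₀, h1, h2, h3, h4⟩ := exists_fixed_lift h hM hne hpM hNM A hx hj0 hj1 hfix
  have hT0 : T₀ ≠ 0 := by
    rintro rfl
    rw [map_zero] at h3
    exact absurd h3 (not_lt.mpr zero_le)
  have hj00 : (j₀ : Qb) ≠ 0 := by
    intro h0
    rw [h0, map_zero] at hj0
    exact absurd hj0 (not_lt.mpr zero_le)
  have hxj : x.ord (jF Qb N) ≤ 0 := by
    have htr : Transcendental Qb (jF Qb N) := by
      obtain ⟨ζ, hζ⟩ := exists_zetaΩ ιC N
      exact (sep_jF hζ).trans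
    exact (ord_inv_sub htr hj00 hx).1.le
  have hcv : A.valuation T₀⁻¹ < 1 := by
    rw [map_inv₀]
    exact inv_lt_one_of_one_lt₀ h3
  have hcA : T₀⁻¹ ∈ A := (A.valuation_le_one_iff _).mp hcv.le
  rcases near_M B hM hV h hne h3 h2 with hn | hn
  · have h5 := near_down h hNM hpM hV h1 (abv_cInf hNM) h3 h2 (by
      rw [cInf_ord_T]; norm_num) hxj hn
    have h6 := near_cInf hl hA hlN hN hζ hj0 hx hP h5 hr hPr
    exact ⟨fun _ => ⟨h5, h6.2⟩, fun h7 => absurd h7 (by rw [h6.1]; exact lt_irrefl _)⟩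
  · have h5 := near_down h hNM hpM hV h1 (abv_cW B hM hNM) h3 h2 (by
      rw [cW_ord_T]
      have := hNp.out.pos
      omega) hxj hn
    have h6 := near_cZero hl hA hlN hN hζ hj0 hx hP h5 hr hPr
    exact ⟨fun h7 => absurd h6 (not_lt.mpr h7), fun _ => ⟨h5, x', h1, h4,
      ⟨⟨T₀⁻¹, hcA⟩, (ord_inv_sub (trans_tF H hpM) hT0 h2).2⟩, hn⟩⟩

end Core

end Fermat.Agent.MX
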