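import Fermat.Agent.MX.Lv
import Fermat.Agent.Mzr.Iface

/-!
Congruences of places at level `pN`, and descent to level `N`.
-/

set_option autoImplicit false
set_option linter.unusedSectionVars false

noncomputable section

namespace Fermat.Agent.MX

open AlgebraicCurve IsDedekindDomain IntermediateField WithZero Module Fermat.Agent.FunField
open Fermat.Agent.Flat Fermat.Agent.LG Fermat.Agent.ModFun Fermat.Agent.WP Fermat.Agent.Mzr
open Fermat.Agent.ESCore (ιC HauptFn haupt2 haupt3)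
open ModularCurve (qExpand jqModC)
open IsLocalRing

/-- The field of algebraic numbers. -/
local notation "Qb" => AlgebraicClosure ℚ
/-- The absolute Galois group. -/
local notation "GQ" => (AlgebraicClosure ℚ ≃ₐ[ℚ] AlgebraicClosure ℚ)

variable {A : ValuationSubring Qb} {q : ℕ}
  {p : ℕ} [hp : Fact p.Prime] {κ : ℤ} {N M : ℕ} [hN : Fact N.Prime] [NeZero N] [NeZero M]

/-- Integrality of values at level `M`. -/
structure ValM (A : ValuationSubring Qb) (M : ℕ) [NeZero M] (t : F0 Qb M) : Prop where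
  mem : t ∈ W0 A M
  inv : t⁻¹ ∈ W0 A M
  val : ∀ (v : Place Qb (F0 Qb M)) (c : A), 0 < v.ord (t - algebraMap Qb _ (c : Qb)) →
    ∀ z ∈ W0 A M, Reg Qb t z → evp v z ∈ A

theorem valM_of (hq : q.Prime) (hA : A.LiesOverPrime q) (hqM : ¬ q ∣ M) (hpM : p ∣ M)
    {H : HauptFn p κ} {S : Set ℤ} {k : ℕ} {P : Polynomial ℤ} (hH : HautData H S k P)
    (hS : ∀ c ∈ S, ∀ c' ∈ S, c ≠ c' →
      IsUnit ((c - c' : ℤ) : A.comap (algebraMap (KI A) Qb))) :
    ValM A M (tF H hpM)⁻¹ := by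
  have hac : IsAlgClosed (ResidueField A) := isAlgClosed_residueA hq hA
  obtain ⟨d, e, h, -⟩ := lift_of_level hq hA hqM hpM hH hS
  refine ⟨h.inv.tW, by rw [inv_inv]; exact h.tW, fun v c hv z hz hr => ?_⟩
  exact h.inv.values (sep_tF H hpM).inv v c hv ⟨z, hz⟩ hr

theorem isUnit_intCast (hq : q.Prime) (hA : A.LiesOverPrime q) {n : ℤ} (hn : ¬ (q : ℤ) ∣ n) :
    IsUnit ((n : ℤ) : A.comap (algebraMap (KI A) Qb)) := by
  obtain ⟨m, rfl | rfl⟩ := n.eq_nat_or_neg
  · have h1 : ¬ q ∣ m := fun h => hn (by exact_mod_cast h)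
    have h2 := Flat.isUnit_natCast (A := A) (L := KI A) hq hA h1
    rw [Int.cast_natCast]
    exact h2
  · have h1 : ¬ q ∣ m := fun h => hn (by rw [Int.dvd_neg]; exact_mod_cast h)
    have h2 := Flat.isUnit_natCast (A := A) (L := KI A) hq hA h1
    rw [Int.cast_neg, Int.cast_natCast]
    exact h2.neg

theorem valM2 (hq : q.Prime) (hA : A.LiesOverPrime q) (hq2 : q ≠ 2) (hqM : ¬ q ∣ M)
    (hpM : 2 ∣ M) : ValM A M (tF haupt2 hpM)⁻¹ := by
  refine valM_of hq hA hqM hpM haut2 ?_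
  have h64 : ¬ (q : ℤ) ∣ 64 := by
    intro h
    have h1 : q ∣ 2 ^ 6 := by exact_mod_cast h
    have h2 := (Nat.prime_dvd_prime_iff_eq hq Nat.prime_two).mp (hq.dvd_of_dvd_pow h1)
    exact hq2 h2
  intro c hc c' hc' hne
  rcases hc with rfl | rfl <;> rcases hc' with rfl | rfl
  · exact absurd rfl hne
  · exact isUnit_intCast hq hA (by norm_num; exact h64)
  · exact isUnit_intCast hq hA (by norm_num; exact h64)
  · exact absurd rfl hne

theorem valM3 (hq : q.Prime) (hA : A.LiesOverPrime q) (hq3 : q ≠ 3) (hqM : ¬ q ∣ M)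
    (hpM : 3 ∣ M) : ValM A M (tF haupt3 hpM)⁻¹ := by
  refine valM_of hq hA hqM hpM haut3 ?_
  have h27 : ¬ (q : ℤ) ∣ 27 := by
    intro h
    have h1 : q ∣ 3 ^ 3 := by exact_mod_cast h
    have h2 := (Nat.prime_dvd_prime_iff_eq hq Nat.prime_three).mp (hq.dvd_of_dvd_pow h1)
    exact hq3 h2
  intro c hc c' hc' hne
  rcases hc with rfl | rfl <;> rcases hc' with rfl | rfl
  · exact absurd rfl hne
  · exact isUnit_intCast hq hA (by norm_num; exact h27)
  · exact isUnit_intCast hq hA (by norm_num; exact h27)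
  · exact absurd rfl hne

theorem algebraMap_mem_W0 {c : Qb} (hc : c ∈ A) : algebraMap Qb (F0 Qb M) c ∈ W0 A M := by
  rw [mem_W0]
  have h1 : ((algebraMap Qb (F0 Qb M) c : F0 Qb M) : LaurentSeries Qb) = HahnSeries.C c :=
    algebraMap_eq_C c
  rw [h1]
  exact C_mem_gA ⟨c, hc⟩

variable {H : HauptFn p κ} {a b : ℤ} (B : Bez N p) (hM : M = N * p)

theorem nrData_M (hV : ValM A M (tF H (hM ▸ dvd_mul_left p N))⁻¹) (h : HRel H a b) (hNp : N ≠ p) :
    NrData A (W0 A M) (tF H (hM ▸ dvd_mul_left p N : p ∣ M))⁻¹ (cInf M) (cW B hM) where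
  sep := (sep_tF H _).inv
  alg := fun _ hc => algebraMap_mem_W0 hc
  inv := hV.inv
  val := hV.val
  zero := fun v hv => by
    rw [v.ord_inv] at hv
    exact eq_of_pole B hM h hNp _ (by omega)
  pos₁ := by rw [Place.ord_inv, cInf_ord_T]; norm_num
  pos₂ := by
    rw [Place.ord_inv, cW_ord_T]
    have := hN.out.pos
    omega

/-- values of the inverse -/
theorem ord_inv_sub {K F : Type*} [Field K] [Field F] [Algebra K F] {v : Place K F} {T : F}
    {T₀ : K} (hT : Transcendental K T) (hT₀ : T₀ ≠ 0) (hv : 0 < v.ord (T - algebraMap K F T₀)) :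
    v.ord T = 0 ∧ 0 < v.ord (T⁻¹ - algebraMap K F T₀⁻¹) := by
  have h0 : v.ord T = 0 := by
    have h1 := ord_add_const_pos v hv hT₀
    rwa [sub_add_cancel] at h1
  refine ⟨h0, ?_⟩
  have hT0 : T ≠ 0 := by
    rintro rfl
    exact hT isAlgebraic_zero
  have hne : T - algebraMap K F T₀ ≠ 0 := fun h => by
    rw [h, v.ord_zero] at hv
    exact lt_irrefl _ hv
  have hc : algebraMap K F T₀ ≠ 0 := (map_ne_zero_iff _ (algebraMap K F).injective).mpr hT₀
  have e : T⁻¹ - algebraMap K F T₀⁻¹ = (T - algebraMap K F T₀) * (T⁻¹ * -(algebraMap K F T₀⁻¹)) := by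
    rw [map_inv₀]
    field_simp
    ring
  rw [e, v.ord_mul hne (mul_ne_zero (inv_ne_zero hT0) (neg_ne_zero.mpr (by
    rw [map_inv₀]; exact inv_ne_zero hc))), v.ord_mul (inv_ne_zero hT0) (neg_ne_zero.mpr (by
    rw [map_inv₀]; exact inv_ne_zero hc)), v.ord_inv, h0, Flat.ord_neg, ord_algebraMap]
  omega

/-- **The congruence at level `M`**. -/
theorem near_M (hV : ValM A M (tF H (hM ▸ dvd_mul_left p N))⁻¹) (h : HRel H a b) (hNp : N ≠ p)
    {v : Place Qb (F0 Qb M)} {T₀ : Qb} (hT₀ : 1 < A.valuation T₀)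
    (hv : 0 < v.ord (tF H (hM ▸ dvd_mul_left p N) - algebraMap Qb _ T₀)) :
    Near A M (tF H (hM ▸ dvd_mul_left p N))⁻¹ v (cInf M) ∨
      Near A M (tF H (hM ▸ dvd_mul_left p N))⁻¹ v (cW B hM) := by
  have hT0 : T₀ ≠ 0 := by
    rintro rfl
    rw [map_zero] at hT₀
    exact absurd hT₀ (not_lt.mpr zero_le)
  have hc : A.valuation T₀⁻¹ < 1 := by
    rw [map_inv₀]
    exact inv_lt_one_of_one_lt₀ hT₀
  have hcA : T₀⁻¹ ∈ A := (A.valuation_le_one_iff _).mp hc.le
  obtain ⟨-, h1⟩ := ord_inv_sub (trans_tF H (hM ▸ dvd_mul_left p N)) hT0 hv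
  have h2 := (nrData_M B hM hV h hNp).near (v := v) (c := ⟨T₀⁻¹, hcA⟩) h1 hc
  rcases h2 with h2 | h2
  · left
    intro z hz hr
    exact h2 z hz hr
  · right
    intro z hz hr
    exact h2 z hz hr

section Down

/-- `U = j / T = (1 + a / T) (1 + b / T) ^ p` -/
def UU (K : Type*) {F : Type*} [Field K] [Field F] [Algebra K F] (t : F) (a b : K) (p : ℕ) : F :=
  (1 + algebraMap K F a * t) * (1 + algebraMap K F b * t) ^ p

theorem UU_eq {K F : Type*} [Field K] [Field F] [Algebra K F] {T j : F} {a b : K} {p : ℕ}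
    (hT : T ≠ 0) (h : j * T ^ p = (T + algebraMap K F a) * (T + algebraMap K F b) ^ p) :
    UU K T⁻¹ a b p = j * T⁻¹ := by
  have h1 : ∀ c : K, 1 + algebraMap K F c * T⁻¹ = (T + algebraMap K F c) * T⁻¹ := by
    intro c
    rw [add_mul, mul_inv_cancel₀ hT]
  rw [UU, h1, h1, mul_pow]
  have h2 : (T + algebraMap K F a) * T⁻¹ * ((T + algebraMap K F b) ^ p * T⁻¹ ^ p) =
      ((T + algebraMap K F a) * (T + algebraMap K F b) ^ p) * (T⁻¹ * T⁻¹ ^ p) := by ring
  rw [h2, ← h]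
  have h3 : T ^ p * T⁻¹ ^ p = 1 := by rw [← mul_pow, mul_inv_cancel₀ hT, one_pow]
  linear_combination (j * T⁻¹) * h3

theorem UU_mem {K F : Type*} [Field K] [Field F] [Algebra K F] {t : F} {a b : K} {p : ℕ}
    {v : Place K F} (ht : t ∈ v.toValuationSubring) : UU K t a b p ∈ v.toValuationSubring :=
  mul_mem (add_mem (one_mem _) (mul_mem (v.algebraMap_mem' _) ht))
    (pow_mem (add_mem (one_mem _) (mul_mem (v.algebraMap_mem' _) ht)) _)

theorem evp_UU {K F : Type*} [Field K] [Field F] [Algebra K F] [IsAlgClosed K] {t : F} {a b : K}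
    {p : ℕ} {v : Place K F} (hv : Rational v) (ht : t ∈ v.toValuationSubring) :
    evp v (UU K t a b p) = (1 + a * evp v t) * (1 + b * evp v t) ^ p := by
  have h1 : ∀ c : K, evp v (1 + algebraMap K F c * t) = 1 + c * evp v t := by
    intro c
    rw [evp_add hv (one_mem _) (mul_mem (v.algebraMap_mem' _) ht),
      evp_mul hv (v.algebraMap_mem' _) ht, evp_algebraMap, evp_one]
  have h2 : ∀ c : K, 1 + algebraMap K F c * t ∈ v.toValuationSubring := fun c =>
    add_mem (one_mem _) (mul_mem (v.algebraMap_mem' _) ht)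
  rw [UU, evp_mul hv (h2 _) (pow_mem (h2 _) _), evp_pow hv (h2 _), h1, h1]

variable {T : F0 Qb M} {a' b' : Qb}

theorem exists_abv_N (hNM : N ∣ M) (w : Place Qb (F0 Qb M)) :
    ∃ w₀ : Place Qb (F0 Qb N), Abv (incM hNM) w w₀ := by
  obtain ⟨ζ, hζ⟩ := exists_zetaΩ ιC M
  refine exists_abv (K := Qb) (incM_C hNM) w ?_
  rcases (sep_jF hζ).exists_point w with h | ⟨c, h⟩
  · exact ⟨jF Qb N, by rw [incM_jF]; exact h.ne⟩
  · exact ⟨jF Qb N - algebraMap Qb _ c, by rw [map_sub, incM_jF, incM_C]; exact h.ne'⟩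

/-- `z U^n` is regular. -/
theorem reg_down (hNM : N ∣ M) (hrel : jF Qb M * T ^ p =
    (T + algebraMap Qb _ a') * (T + algebraMap Qb _ b') ^ p) (hT : Transcendental Qb T)
    {z : F0 Qb N} (hz : Reg Qb (jF Qb N)⁻¹ z) :
    ∃ n : ℕ, Reg Qb T⁻¹ (incM hNM z * UU Qb T⁻¹ a' b' p ^ n) := by
  obtain ⟨ζ, hζ⟩ := exists_zetaΩ ιC N
  have hsep := sep_jF hζ
  obtain ⟨n, hn⟩ := Reg.exists_mem hsep.inv hz
  refine ⟨n, fun w hw => ?_⟩
  have hT0 : T ≠ 0 := by
    rintro rfl
    exact hT isAlgebraic_zero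
  by_cases hz0 : z = 0
  · rw [hz0, map_zero, zero_mul, w.ord_zero]
  have hzM : incM hNM z ≠ 0 := (_root_.map_ne_zero (incM hNM)).mpr hz0
  have hj0 : jF Qb M ≠ 0 := j_ne_zero hrel hT
  have hU : UU Qb T⁻¹ a' b' p = jF Qb M * T⁻¹ := UU_eq hT0 hrel
  have hUne : UU Qb T⁻¹ a' b' p ≠ 0 := by rw [hU]; exact mul_ne_zero hj0 (inv_ne_zero hT0)
  obtain ⟨w₀, e, he, hw₀⟩ := exists_abv_N hNM w
  have h1 := (mem_L' hz0).mp (hn n le_rfl) w₀
  rw [Finsupp.smul_apply, pol_apply (hsep.finOrd _), w₀.ord_inv, neg_neg, nsmul_eq_mul] at h1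
  have h2 : w.ord (jF Qb M) = e * w₀.ord (jF Qb N) := by rw [← incM_jF hNM]; exact hw₀ _
  have h3 : w.ord (incM hNM z) = e * w₀.ord z := hw₀ _
  have he' : (0 : ℤ) < e := by exact_mod_cast he
  rw [w.ord_mul hzM (pow_ne_zero n hUne), Flat.ord_pow, hU,
    w.ord_mul hj0 (inv_ne_zero hT0), w.ord_inv, h3]
  have hw' : w.ord T ≤ 0 := by rw [w.ord_inv] at hw; omega
  rcases hw'.lt_or_eq with h4 | h4
  · have h5 := ord_j_neg hrel hT h4
    have h6 : w₀.ord (jF Qb N) ≤ 0 := by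
      by_contra hc
      rw [not_le] at hc
      have := mul_pos he' hc
      omega
    rw [max_eq_left h6, mul_zero, neg_zero] at h1
    rw [h5, add_neg_cancel, mul_zero, add_zero]
    exact mul_nonneg he'.le h1
  · have h5 := ord_j_zero hrel hT h4
    have h6 : 0 ≤ w₀.ord (jF Qb N) := by
      by_contra hc
      rw [not_le] at hc
      have := mul_neg_of_pos_of_neg he' hc
      omega
    rw [max_eq_right h6] at h1
    rw [h4, neg_zero, add_zero, h2]
    have h7 := mul_le_mul_of_nonneg_left h1 he'.le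
    have e7 : (e : ℤ) * -(n * w₀.ord (jF Qb N)) = -(n * (e * w₀.ord (jF Qb N))) := by ring
    rw [e7] at h7
    linarith

theorem UU_mem_W0 {t : F0 Qb M} (ht : t ∈ W0 A M) {a b : ℤ} :
    UU Qb t (a : Qb) (b : Qb) p ∈ W0 A M := by
  have h1 : ∀ c : ℤ, algebraMap Qb (F0 Qb M) (c : Qb) ∈ W0 A M := fun c =>
    algebraMap_mem_W0 (intCast_mem A c)
  exact mul_mem (add_mem (one_mem _) (mul_mem (h1 _) ht))
    (pow_mem (add_mem (one_mem _) (mul_mem (h1 _) ht)) _)

end Down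

/-- units congruent to one -/
theorem v_one_add {K : Type*} [Field K] (A : ValuationSubring K) {x : K} (hx : A.valuation x < 1) :
    A.valuation (1 + x) = 1 := by
  have h1 : A.valuation x < A.valuation (1 : K) := by rwa [map_one]
  rw [Valuation.map_add_eq_of_lt_left _ h1, map_one]

theorem v_mul_sub_one {K : Type*} [Field K] (A : ValuationSubring K) {x y : K}
    (hx : A.valuation (x - 1) < 1) (hy : A.valuation (y - 1) < 1) :
    A.valuation (x * y - 1) < 1 := by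
  have e : x * y - 1 = (x - 1) * (y - 1) + ((x - 1) + (y - 1)) := by ring
  rw [e]
  refine (Valuation.map_add _ _ _).trans_lt (max_lt ?_ ((Valuation.map_add _ _ _).trans_lt
    (max_lt hx hy)))
  rw [map_mul]
  exact (mul_le_mul' le_rfl hy.le).trans_lt (by rwa [mul_one])

theorem v_pow_sub_one {K : Type*} [Field K] (A : ValuationSubring K) {x : K}
    (hx : A.valuation (x - 1) < 1) (n : ℕ) : A.valuation (x ^ n - 1) < 1 := by
  induction n with
  | zero => rw [pow_zero, sub_self, map_zero]; exact zero_lt_one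
  | succ n ih => rw [pow_succ]; exact v_mul_sub_one A ih hx

theorem v_UU {a b : ℤ} {t : Qb} (ht : A.valuation t < 1) :
    A.valuation ((1 + (a : Qb) * t) * (1 + (b : Qb) * t) ^ p - 1) < 1 := by
  have h1 : ∀ c : ℤ, A.valuation ((1 + (c : Qb) * t) - 1) < 1 := by
    intro c
    rw [add_sub_cancel_left, map_mul]
    exact (mul_le_mul' ((A.valuation_le_one_iff _).mpr (intCast_mem A c)) le_rfl).trans_lt
      (by rwa [one_mul])
  exact v_mul_sub_one A (h1 a) (v_pow_sub_one A (h1 b) p)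

/-- **Descent of congruences to level `N`**. -/
theorem near_down {H : HauptFn p κ} {a b : ℤ} (h : HRel H a b) (hNM : N ∣ M) (hpM : p ∣ M)
    (hV : ValM A M (tF H hpM)⁻¹) {v' c' : Place Qb (F0 Qb M)} {v c : Place Qb (F0 Qb N)}
    (hv : Abv (incM hNM) v' v) (hc : Abv (incM hNM) c' c) {T₀ : Qb} (hT₀ : 1 < A.valuation T₀)
    (hv' : 0 < v'.ord (tF H hpM - algebraMap Qb _ T₀)) (hc' : c'.ord (tF H hpM) < 0)
    (hvj : v.ord (jF Qb N) ≤ 0) (hn : Near A M (tF H hpM)⁻¹ v' c') :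
    Near A N (jF Qb N)⁻¹ v c := by
  intro z hz hr
  set T := tF H hpM with hTdef
  have hrel := h.relF hpM
  rw [← hTdef] at hrel
  have hT : Transcendental Qb T := trans_tF H hpM
  have hsT : Sep Qb T := sep_tF H hpM
  obtain ⟨ζ, hζ⟩ := exists_zetaΩ ιC N
  have hsj : Sep Qb (jF Qb N) := sep_jF hζ
  obtain ⟨n, hreg⟩ := reg_down hNM hrel hT hr
  have hTW : T⁻¹ ∈ W0 A M := hV.mem
  have hUW := UU_mem_W0 (p := p) (a := a) (b := b) hTW
  set z' := incM hNM z * UU Qb T⁻¹ (a : Qb) (b : Qb) p ^ n with hz'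
  have hzW : z' ∈ W0 A M := mul_mem (by rw [mem_W0, coe_incM]; exact hz) (pow_mem hUW n)
  have hT0 : T₀ ≠ 0 := by
    rintro rfl
    rw [map_zero] at hT₀
    exact absurd hT₀ (not_lt.mpr zero_le)
  have hcv : A.valuation T₀⁻¹ < 1 := by
    rw [map_inv₀]
    exact inv_lt_one_of_one_lt₀ hT₀
  obtain ⟨h0, h1⟩ := ord_inv_sub hT hT0 hv'
  have hrat' : ∀ w : Place Qb (F0 Qb M), Rational w := fun w => hsT.rational w
  have hrat : ∀ w : Place Qb (F0 Qb N), Rational w := fun w => hsj.rational w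
  have ev : ∀ (w' : Place Qb (F0 Qb M)) (w : Place Qb (F0 Qb N)), Abv (incM hNM) w' w →
      0 ≤ w'.ord T⁻¹ → w.ord (jF Qb N) ≤ 0 → evp w' z' = evp w z *
        ((1 + (a : Qb) * evp w' T⁻¹) * (1 + (b : Qb) * evp w' T⁻¹) ^ p) ^ n := by
    intro w' w hw h2 h3
    have hz0 : 0 ≤ w.ord z := hr w (by rw [w.ord_inv]; omega)
    have ht := mem_of_ord_nonneg w' h2
    rw [hz', evp_mul (hrat' w') (hw.mem_iff.mpr (mem_of_ord_nonneg w hz0))
      (pow_mem (UU_mem ht) n), evp_pow (hrat' w') (UU_mem ht), evp_UU (hrat' w') ht,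
      hw.evp_eq (incM_C hNM) (hrat w) hz0]
  have hv0 : 0 ≤ v'.ord T⁻¹ := by rw [v'.ord_inv, h0]; norm_num
  have hc0 : 0 < c'.ord T⁻¹ := by rw [c'.ord_inv]; omega
  have e1 := ev v' v hv hv0 hvj
  have hcj : c.ord (jF Qb N) ≤ 0 := by
    have h4 := ord_j_neg hrel hT hc'
    by_contra hcon
    rw [not_le] at hcon
    have h5 := hc.pos_iff.mpr hcon
    rw [incM_jF, h4] at h5
    omega
  have e2 := ev c' c hc hc0.le hcj
  have e3 : evp c' T⁻¹ = 0 := evp_t (c := 0) (by rw [map_zero, sub_zero]; exact hc0)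
  rw [e3, mul_zero, add_zero, mul_zero, add_zero, one_pow, mul_one, one_pow, mul_one] at e2
  have e4 : evp v' T⁻¹ = T₀⁻¹ := evp_t h1
  rw [e4] at e1
  have h5 := hn z' hzW hreg
  have h6 : evp c' z' ∈ A := hV.val c' 0 (by
    rw [ZeroMemClass.coe_zero, map_zero, sub_zero]; exact hc0) z' hzW hreg
  rw [e1, e2] at h5
  rw [e2] at h6
  set u := ((1 + (a : Qb) * T₀⁻¹) * (1 + (b : Qb) * T₀⁻¹) ^ p) ^ n with hu
  have hu1 : A.valuation (u - 1) < 1 := v_pow_sub_one A (v_UU hcv) n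
  have hu2 : A.valuation u = 1 := by
    have := v_one_add A hu1
    rwa [add_sub_cancel] at this
  have h7 : A.valuation (evp v z * u) ≤ 1 := by
    have e : evp v z * u = (evp v z * u - evp c z) + evp c z := by ring
    rw [e]
    exact (Valuation.map_add _ _ _).trans (max_le h5.le ((A.valuation_le_one_iff _).mpr h6))
  rw [map_mul, hu2, mul_one] at h7
  have e8 : evp v z - evp c z = (evp v z * u - evp c z) - evp v z * (u - 1) := by ring
  rw [e8]
  refine (Valuation.map_sub _ _ _).trans_lt (max_lt h5 ?_)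
  rw [map_mul]
  exact (mul_le_mul' h7 le_rfl).trans_lt (by rwa [one_mul])

end Fermat.Agent.MX
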