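import Fermat.Agent.EC.Kernel
import Fermat.Agent.EC.NormalForm
import Fermat.Agent.RT.IndexTwoEC
import Fermat.Prelude.Def_EllipticCurve_ZeroComponentAt

set_option autoImplicit false
set_option linter.unusedSectionVars false

/-!
# The normalised `x`-coordinate of a point on an elliptic curve
-/

open WeierstrassCurve WeierstrassCurve.Affine

noncomputable section

namespace Fermat.Agent.MX

open Fermat.Agent.EC

variable {K : Type*} [Field K]

/-- The normalised coordinate `-(c₄ x + b₂ b₄ - 18 b₆) / c₆`; it is invariant under variable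
changes, and vanishes at the node of a nodal cubic. -/
def Xs (W : WeierstrassCurve K) (P : W.toAffine.Point) : K :=
  -(W.c₄ * xc P + (W.b₂ * W.b₄ - 18 * W.b₆)) / W.c₆

lemma Xs_neg [DecidableEq K] {W : WeierstrassCurve K} (P : W.toAffine.Point) :
    Xs W (-P) = Xs W P := by
  rw [Xs, Xs, ECT.xc_neg]

lemma Xs_eq_iff {W : WeierstrassCurve K} (h4 : W.c₄ ≠ 0) (h6 : W.c₆ ≠ 0)
    {P Q : W.toAffine.Point} : Xs W P = Xs W Q ↔ xc P = xc Q := by
  rw [Xs, Xs, div_left_inj' h6, neg_inj, add_left_inj]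
  exact mul_right_inj' h4

/-- Invariance under variable changes. -/
lemma Xs_pointEquiv [DecidableEq K] (W : WeierstrassCurve K) (C : VariableChange K)
    {P : (C • W).toAffine.Point} (hP : P ≠ 0) :
    Xs W (pointEquiv W C P) = Xs (C • W) P := by
  rcases P with _ | ⟨x, y, h⟩
  · exact absurd rfl hP
  rw [pointEquiv_apply, pointMap_some, Xs, Xs, xc_some, xc_some, variableChange_c₄,
    variableChange_c₆, variableChange_b₂, variableChange_b₄, variableChange_b₆]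
  obtain ⟨u, r, s, t⟩ := C
  simp only [vcX]
  have hu : ((u⁻¹ : Kˣ) : K) = (u : K)⁻¹ := Units.val_inv_eq_inv_val u
  rw [hu]
  have hu0 : (u : K) ≠ 0 := u.ne_zero
  by_cases h6 : W.c₆ = 0
  · rw [h6]; simp
  have e : -((u : K)⁻¹ ^ 4 * W.c₄ * x + ((u : K)⁻¹ ^ 2 * (W.b₂ + 12 * r) *
      ((u : K)⁻¹ ^ 4 * (W.b₄ + r * W.b₂ + 6 * r ^ 2)) -
      18 * ((u : K)⁻¹ ^ 6 * (W.b₆ + 2 * r * W.b₄ + r ^ 2 * W.b₂ + 4 * r ^ 3)))) =
      (u : K)⁻¹ ^ 6 * -(W.c₄ * ((u : K) ^ 2 * x + r) + (W.b₂ * W.b₄ - 18 * W.b₆)) := by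
    have h1 : (u : K)⁻¹ ^ 4 * W.c₄ * x = (u : K)⁻¹ ^ 6 * (W.c₄ * ((u : K) ^ 2 * x)) := by
      field_simp
    rw [h1, WeierstrassCurve.c₄]
    ring
  rw [e, mul_div_mul_left _ _ (pow_ne_zero 6 (inv_ne_zero hu0))]

section Local

variable {Γ₀ : Type*} [LinearOrderedCommGroupWithZero Γ₀] {v : Valuation K Γ₀}

lemma v_c₆ {W : WeierstrassCurve K} (hc : v W.c₄ = 1) (hΔ : v W.Δ < 1) : v W.c₆ = 1 := by
  have h1 : W.c₆ ^ 2 = W.c₄ ^ 3 - 1728 * W.Δ := by
    have := W.c_relation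
    linear_combination this
  have h2 : v (W.c₆ ^ 2) = 1 := by
    rw [h1, sub_eq_add_neg]
    refine v_eq_one_of_add (by rw [map_pow, hc, one_pow]) ?_
    rw [Valuation.map_neg]
    exact v_lt_mul (by exact_mod_cast v_nat_le (v := v) 1728) hΔ
  rw [map_pow] at h2
  exact (pow_eq_one_iff_of_nonneg zero_le (by norm_num)).mp h2

lemma v_Xs {W : WeierstrassCurve K} (hc : v W.c₄ = 1) (hΔ : v W.Δ < 1)
    (P : W.toAffine.Point) : v (Xs W P) = v (xc P - nodeX W) := by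
  have hc0 : W.c₄ ≠ 0 := by
    intro h0; rw [h0, map_zero] at hc; exact zero_ne_one hc
  have h1 : Xs W P = -(W.c₄ * (xc P - nodeX W)) / W.c₆ := by
    rw [Xs, nodeX]
    congr 2
    field_simp
    ring
  rw [h1, map_div₀, v_c₆ hc hΔ, div_one, Valuation.map_neg, map_mul, hc, one_mul]

end Local

section Node

variable {Γ₀ : Type*} [LinearOrderedCommGroupWithZero Γ₀] {v : Valuation K Γ₀}

theorem node_iff {E : WeierstrassCurve K} (hW : VInt v E) (hc : v E.c₄ = 1) (hΔ : v E.Δ < 1)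
    (hΔ0 : E.Δ ≠ 0) {x y : K} (h : E.toAffine.Equation x y) (hx : v x ≤ 1) :
    (v (2 * y + E.a₁ * x + E.a₃) = 1 ∨ v (3 * x ^ 2 + 2 * E.a₂ * x + E.a₄ - E.a₁ * y) = 1) ↔
      1 ≤ v (x - nodeX E) := by
  obtain ⟨hM, -⟩ := hW.multForm hc hΔ hΔ0
  have hx' : vcX (nodeVC E) (x - nodeX E) = x := by simp [vcX, nodeVC]
  have hy' : vcY (nodeVC E) (x - nodeX E) (y - nodeY E) = y := by simp [vcY, nodeVC]
  have hns' : (nodeVC E • E).toAffine.Equation (x - nodeX E) (y - nodeY E) := by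
    rw [← vc_equation_iff, hx', hy']
    exact h
  have p1 : 2 * (y - nodeY E) + (nodeVC E • E).a₁ * (x - nodeX E) + (nodeVC E • E).a₃ =
      2 * y + E.a₁ * x + E.a₃ := by
    rw [variableChange_a₁, variableChange_a₃]
    simp only [nodeVC, inv_one, Units.val_one]
    ring
  have p2 : 3 * (x - nodeX E) ^ 2 + 2 * (nodeVC E • E).a₂ * (x - nodeX E) + (nodeVC E • E).a₄ -
      (nodeVC E • E).a₁ * (y - nodeY E) = 3 * x ^ 2 + 2 * E.a₂ * x + E.a₄ - E.a₁ * y := by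
    rw [variableChange_a₁, variableChange_a₂, variableChange_a₄]
    simp only [nodeVC, inv_one, Units.val_one]
    ring
  have hvx : v (x - nodeX E) ≤ 1 := v_sub_le hx (hW.nodeX_le hc)
  constructor
  · intro h0
    by_contra hlt
    rw [not_le] at hlt
    have hyi := y_integral hM.vint hns' hvx
    have hx2 : v ((x - nodeX E) ^ 2) < 1 := by
      rw [map_pow]; exact pow_lt_one₀ zero_le hlt (by norm_num)
    have hx3 : v ((x - nodeX E) ^ 3) < 1 := by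
      rw [map_pow]; exact pow_lt_one₀ zero_le hlt (by norm_num)
    have hy0 : v (y - nodeY E) < 1 := by
      have heq := (equation_iff _ _).mp hns'
      by_contra hge
      rw [not_lt] at hge
      have hy1 : v (y - nodeY E) = 1 := le_antisymm hyi hge
      have h5 : v ((y - nodeY E) ^ 2) < 1 := by
        have e1 : (y - nodeY E) ^ 2 = (x - nodeX E) ^ 3 + (nodeVC E • E).a₂ * (x - nodeX E) ^ 2 +
          (nodeVC E • E).a₄ * (x - nodeX E) + (nodeVC E • E).a₆ -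
          (nodeVC E • E).a₁ * (x - nodeX E) * (y - nodeY E) -
          (nodeVC E • E).a₃ * (y - nodeY E) := by
          linear_combination heq
        rw [e1]
        refine v_sub_lt (v_sub_lt (v_add_lt (v_add_lt (v_add_lt hx3 ?_) ?_) hM.a₆) ?_) ?_
        · exact v_lt_mul hM.vint.a₂ hx2
        · exact v_lt_mul hM.vint.a₄ hlt
        · rw [mul_comm]
          exact v_lt_mul hyi (v_lt_mul hM.vint.a₁ hlt)
        · rw [mul_comm]
          exact v_lt_mul hyi (hM.a₃.trans_lt hM.a₆)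
      rw [map_pow, hy1, one_pow] at h5
      exact lt_irrefl _ h5
    have q1 : v (2 * y + E.a₁ * x + E.a₃) < 1 := by
      rw [← p1]
      exact v_add_lt (v_add_lt (v_lt_mul v_two_le hy0) (v_lt_mul hM.vint.a₁ hlt))
        (hM.a₃.trans_lt hM.a₆)
    have q2 : v (3 * x ^ 2 + 2 * E.a₂ * x + E.a₄ - E.a₁ * y) < 1 := by
      rw [← p2]
      refine v_sub_lt (v_add_lt (v_add_lt (v_lt_mul v_three_le hx2) ?_)
        (hM.a₄.trans_lt hM.a₆)) (v_lt_mul hM.vint.a₁ hy0)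
      exact v_lt_mul (v_mul_le' v_two_le hM.vint.a₂) hlt
    rcases h0 with h0 | h0
    · rw [h0] at q1; exact lt_irrefl _ q1
    · rw [h0] at q2; exact lt_irrefl _ q2
  · intro h1
    rw [← p1, ← p2]
    exact hM.nonsing hns' (le_antisymm hvx h1)

end Node

section Res

/-- The field of algebraic numbers. -/
local notation "Kb" => AlgebraicClosure ℚ

theorem res_nonsing_iff (W : WeierstrassCurve ℤ) {E : WeierstrassCurve Kb}
    (A : ValuationSubring Kb)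
    (h1 : E.a₁ = (W.a₁ : Kb)) (h2 : E.a₂ = (W.a₂ : Kb)) (h3 : E.a₃ = (W.a₃ : Kb))
    (h4 : E.a₄ = (W.a₄ : Kb)) (h6 : E.a₆ = (W.a₆ : Kb)) {x y : Kb} (hxA : x ∈ A) (hyA : y ∈ A)
    (heq : E.toAffine.Equation x y) :
    (W.map (Int.castRingHom (IsLocalRing.ResidueField A))).toAffine.Nonsingular
      (IsLocalRing.residue A ⟨x, hxA⟩) (IsLocalRing.residue A ⟨y, hyA⟩) ↔
      (A.valuation (2 * y + E.a₁ * x + E.a₃) = 1 ∨
        A.valuation (3 * x ^ 2 + 2 * E.a₂ * x + E.a₄ - E.a₁ * y) = 1) := by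
  obtain ⟨r, hr⟩ : ∃ r, r = IsLocalRing.residue A := ⟨_, rfl⟩
  rw [← hr]
  have hr0 : ∀ z : A, r z = 0 ↔ A.valuation (z : Kb) < 1 := by
    intro z
    rw [hr, IsLocalRing.residue_eq_zero_iff, ValuationSubring.valuation_lt_one_iff]
  have hk : ∀ n : ℤ, (Int.castRingHom (IsLocalRing.ResidueField A)) n = r (n : A) := fun n => by
    rw [map_intCast, eq_intCast]
  have e2 : ∀ z : A, r z ≠ 0 ↔ A.valuation (z : Kb) = 1 := by
    intro z
    rw [Ne, hr0, not_lt]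
    exact ⟨fun h => le_antisymm (A.valuation_le_one z) h, fun h => h.ge⟩
  rw [equation_iff] at heq
  rw [nonsingular_iff', equation_iff]
  simp only [WeierstrassCurve.toAffine, WeierstrassCurve.map_a₁, WeierstrassCurve.map_a₂,
    WeierstrassCurve.map_a₃, WeierstrassCurve.map_a₄, WeierstrassCurve.map_a₆, hk]
  have h5 : (⟨y, hyA⟩ : A) ^ 2 + (W.a₁ : A) * ⟨x, hxA⟩ * ⟨y, hyA⟩ + (W.a₃ : A) * ⟨y, hyA⟩ =
      (⟨x, hxA⟩ : A) ^ 3 + (W.a₂ : A) * ⟨x, hxA⟩ ^ 2 + (W.a₄ : A) * ⟨x, hxA⟩ + (W.a₆ : A) := by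
    apply Subtype.ext
    push_cast
    rw [← h1, ← h2, ← h3, ← h4, ← h6]
    exact heq
  have h7 := congrArg r h5
  simp only [map_add, map_mul, map_pow] at h7
  have e3 : r (W.a₁ : A) * r ⟨y, hyA⟩ - (3 * r ⟨x, hxA⟩ ^ 2 + 2 * r (W.a₂ : A) *
      r ⟨x, hxA⟩ + r (W.a₄ : A)) =
      r ((W.a₁ : A) * ⟨y, hyA⟩ - (3 * ⟨x, hxA⟩ ^ 2 + 2 * (W.a₂ : A) * ⟨x, hxA⟩ + (W.a₄ : A))) := by
    simp only [map_add, map_mul, map_pow, map_sub, map_ofNat]
  have e4 : 2 * r ⟨y, hyA⟩ + r (W.a₁ : A) * r ⟨x, hxA⟩ + r (W.a₃ : A) =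
      r (2 * ⟨y, hyA⟩ + (W.a₁ : A) * ⟨x, hxA⟩ + (W.a₃ : A)) := by
    simp only [map_add, map_mul, map_ofNat]
  rw [e3, e4, e2, e2]
  have c2 : ((2 : A) : Kb) = 2 := rfl
  have c3 : ((3 : A) : Kb) = 3 := rfl
  have e5 : (((W.a₁ : A) * ⟨y, hyA⟩ - (3 * ⟨x, hxA⟩ ^ 2 + 2 * (W.a₂ : A) * ⟨x, hxA⟩ +
      (W.a₄ : A)) : A) : Kb) = -(3 * x ^ 2 + 2 * E.a₂ * x + E.a₄ - E.a₁ * y) := by
    rw [h1, h2, h4]
    push_cast
    rw [c2, c3]
    ring
  have e6 : ((2 * ⟨y, hyA⟩ + (W.a₁ : A) * ⟨x, hxA⟩ + (W.a₃ : A) : A) : Kb) =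
      2 * y + E.a₁ * x + E.a₃ := by
    rw [h1, h3]
    push_cast
    rw [c2]
  rw [e5, e6, Valuation.map_neg]
  constructor
  · rintro ⟨-, h⟩
    exact h.symm
  · intro h
    exact ⟨h7, h.symm⟩

/-- **Component of a point at a multiplicative place in terms of the normalised coordinate.** -/
theorem inZeroComponentAt_iff {W : WeierstrassCurve ℤ} {A : ValuationSubring Kb}
    (hc : A.valuation ((W.map (Int.castRingHom ℚ))⁄Kb).c₄ = 1)
    (hΔ : A.valuation ((W.map (Int.castRingHom ℚ))⁄Kb).Δ < 1)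
    (hΔ0 : W.Δ ≠ 0)
    {Q : ((W.map (Int.castRingHom ℚ))⁄Kb).Point} (hQ : Q ≠ 0) (hx : A.valuation (xc Q) ≤ 1) :
    W.InZeroComponentAt A Q ↔ 1 ≤ A.valuation (Xs ((W.map (Int.castRingHom ℚ))⁄Kb) Q) := by
  have hW := RT.ss_vint W A
  rw [v_Xs hc hΔ]
  rcases Q with _ | ⟨x, y, h⟩
  · exact absurd rfl hQ
  rw [xc_some] at hx ⊢
  have hy := y_integral hW h.1 hx
  have hxA : x ∈ A := (A.valuation_le_one_iff x).mp hx
  have hyA : y ∈ A := (A.valuation_le_one_iff y).mp hy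
  rw [← node_iff hW hc hΔ (RT.ss_Δ0 hΔ0) h.1 hx,
    ← res_nonsing_iff W A (by simp [WeierstrassCurve.baseChange])
      (by simp [WeierstrassCurve.baseChange]) (by simp [WeierstrassCurve.baseChange])
      (by simp [WeierstrassCurve.baseChange]) (by simp [WeierstrassCurve.baseChange]) hxA hyA h.1]
  constructor
  · rintro (h0 | ⟨x', y', h', hxy, h0⟩)
    · exact absurd h0 (Point.some_ne_zero _)
    cases hxy
    rcases h0 with h0 | ⟨_, _, h0⟩
    · exact absurd hxA h0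
    · exact h0
  · intro h1
    exact Or.inr ⟨x, y, h, rfl, Or.inr ⟨hxA, hyA, h1⟩⟩

end Res

end Fermat.Agent.MX
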