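import Fermat.Agent.WP.Xpt
import Fermat.Agent.MX.NearM
import Fermat.Agent.MX.Xs

/-!
The values of the coefficients of the polynomial of the normalised `x`-coordinates near the cusps.
-/

set_option autoImplicit false
set_option linter.unusedSectionVars false

noncomputable section

namespace Fermat.Agent.MX

open AlgebraicCurve IntermediateField Polynomial
open Fermat.Agent.FunField Fermat.Agent.Flat Fermat.Agent.LG Fermat.Agent.ModFun
open Fermat.Agent.WP hiding X
open Fermat.Agent.Mzr Fermat.Agent.Tor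
open Fermat.Agent.ESCore (ιC)
open ModularCurve (qExpand jqModC)

/-- The field of algebraic numbers. -/
local notation "Qb" => AlgebraicClosure ℚ
/-- The absolute Galois group. -/
local notation "GQ" => (AlgebraicClosure ℚ ≃ₐ[ℚ] AlgebraicClosure ℚ)

theorem inv_jF_mem_W0 (A : ValuationSubring Qb) (M : ℕ) [NeZero M] :
    (jF Qb M)⁻¹ ∈ W0 A M := by
  refine ⟨1, jqModC A, ?_, ?_⟩
  · intro h
    have h1 := congrArg (fun F : LaurentSeries (IsLocalRing.ResidueField A) => F.coeff (-1)) h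
    have h2 : (lK A (jqModC A)) = jqModC (IsLocalRing.ResidueField A) := coeffMap_jqModC _
    have h3 := coeff_jqModC_pow_self' (R := IsLocalRing.ResidueField A) 1
    rw [pow_one, Nat.cast_one] at h3
    simp only [h2, h3, HahnSeries.coeff_zero] at h1
    exact one_ne_zero h1
  · have h2 : (lA A (jqModC A)) = jqModC Qb := coeffMap_jqModC _
    rw [h2, map_one]
    have h3 : (((jF Qb M)⁻¹ : F0 Qb M) : LaurentSeries Qb) = (jqModC Qb)⁻¹ := by
      push_cast
      rfl
    change jqModC Qb * (((jF Qb M)⁻¹ : F0 Qb M) : LaurentSeries Qb) = 1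
    rw [h3, mul_inv_cancel₀ jqModC_ne_zero]

section Zeta

variable {l : ℕ} {A : ValuationSubring Qb} {N : ℕ}

theorem v_one_sub_zeta (hl : l.Prime) (hA : A.LiesOverPrime l) (hlN : ¬ l ∣ N) {ζ : Qb}
    (hζ : ζ ^ N = 1) {i : ℕ} (hi : ζ ^ i ≠ 1) : A.valuation (1 - ζ ^ i) = 1 := by
  have hN0 : N ≠ 0 := fun h => hlN (h ▸ dvd_zero l)
  have hζA : A.valuation ζ = 1 := by
    have h1 : A.valuation ζ ^ N = 1 := by rw [← map_pow, hζ, map_one]
    exact (pow_eq_one_iff_of_nonneg zero_le hN0).mp h1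
  have h1 : A.valuation (1 - ζ ^ i) ≤ 1 := by
    refine (Valuation.map_sub _ _ _).trans (max_le (by rw [map_one]) ?_)
    rw [map_pow, hζA, one_pow]
  refine le_antisymm h1 (not_lt.mp fun h2 => hi ?_)
  refine (root_eq_of_congr hl hA hlN (one_pow N) ?_ h2).symm
  rw [← pow_mul, mul_comm, pow_mul, hζ, one_pow]

end Zeta

section HSA

variable {N : ℕ} [NeZero N] {l : ℕ} {A : ValuationSubring Qb} {ζ : Qbˣ}

theorem pow_ne_one_of (hζ : ιC ζ = Complex.exp (2 * Real.pi * Complex.I / N)) {i : ℕ}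
    (hi : 0 < i) (hiN : i < N) : (ζ : Qb) ^ i ≠ 1 := by
  intro h
  have h1 := congrArg ιC h
  rw [map_one, map_pow, hζ] at h1
  exact exp_pow_ne_one hi hiN h1

theorem pow_N_eq_one (hζ : ιC ζ = Complex.exp (2 * Real.pi * Complex.I / N)) :
    (ζ : Qb) ^ N = 1 := by
  apply ιC.injective
  rw [map_pow, hζ, map_one]
  exact (Complex.isPrimitiveRoot_exp N (NeZero.ne N)).pow_eq_one

theorem v_zeta (hζ : ιC ζ = Complex.exp (2 * Real.pi * Complex.I / N)) :
    A.valuation (ζ : Qb) = 1 := by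
  have h1 : A.valuation (ζ : Qb) ^ N = 1 := by rw [← map_pow, pow_N_eq_one hζ, map_one]
  exact (pow_eq_one_iff_of_nonneg zero_le (NeZero.ne N)).mp h1

theorem v_cK (hl : l.Prime) (hA : A.LiesOverPrime l) (hlN : ¬ l ∣ N)
    (hζ : ιC ζ = Complex.exp (2 * Real.pi * Complex.I / N)) {i : ℕ} (hi : 0 < i) (hiN : i < N) :
    A.valuation (cK ζ i) = 1 := by
  rw [cK, map_div₀, map_pow, map_pow, v_zeta hζ,
    v_one_sub_zeta hl hA hlN (pow_N_eq_one hζ) (pow_ne_one_of hζ hi hiN), one_pow, one_pow,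
    div_one]

theorem HS_coeff_mem (hl : l.Prime) (hA : A.LiesOverPrime l) (hlN : ¬ l ∣ N) (hN : 1 < N)
    (hζ : ιC ζ = Complex.exp (2 * Real.pi * Complex.I / N)) (k : ℕ) :
    (HS hN hζ).coeff k ∈ W0 A N := by
  classical
  have hζA : (ζ : Qb) ∈ A := (A.valuation_le_one_iff _).mp (v_zeta hζ).le
  have hζA' : ((ζ⁻¹ : Qbˣ) : Qb) ∈ A := by
    refine (A.valuation_le_one_iff _).mp ?_
    rw [Units.val_inv_eq_inv_val, map_inv₀, v_zeta hζ, inv_one]
  let z : Aˣ := ⟨⟨ζ, hζA⟩, ⟨((ζ⁻¹ : Qbˣ) : Qb), hζA'⟩, Subtype.ext (by simp),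
    Subtype.ext (by simp)⟩
  have hz : A.subtype z = ζ := rfl
  let c : ℕ → A := fun i => if h : 0 < i ∧ i < N then
    ⟨cK ζ i, (A.valuation_le_one_iff _).mp (v_cK hl hA hlN hζ h.1 h.2).le⟩ else 0
  have hc : ∀ i, 0 < i → i < N → c i * (1 - (z : A) ^ i) ^ 2 = (z : A) ^ i := by
    intro i h0 h1
    have e : c i = ⟨cK ζ i, (A.valuation_le_one_iff _).mp (v_cK hl hA hlN hζ h0 h1).le⟩ :=
      dif_pos ⟨h0, h1⟩
    rw [e]
    apply Subtype.ext
    exact cK_spec hζ h0 h1
  have h := HS_map_ring hN hζ A.subtype hz hc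
  have h2 : (∏ u : (ZMod N)ˣ, (X - C (HahnSeries.ofPowerSeries ℤ Qb
        ((XS 1 (Xinf z (c (ZMod.val (u : ZMod N))) (ZMod.val (u : ZMod N)))).map A.subtype)))) =
      (∏ u : (ZMod N)ˣ, (X - C (HahnSeries.ofPowerSeries ℤ A
        (XS 1 (Xinf z (c (ZMod.val (u : ZMod N))) (ZMod.val (u : ZMod N))))))).map (lA A) := by
    rw [Polynomial.map_prod]
    refine Finset.prod_congr rfl fun u _ => ?_
    rw [Polynomial.map_sub, Polynomial.map_X, Polynomial.map_C, lA, coeffMap_ofPowerSeries]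
  rw [h2] at h
  have h3 := congrArg (fun P : Polynomial (LaurentSeries Qb) => P.coeff k) h
  simp only [Polynomial.coeff_map] at h3
  rw [mem_W0]
  have h4 : (((HS hN hζ).coeff k : F0 Qb N) : LaurentSeries Qb) =
    algebraMap (F0 Qb N) (LaurentSeries Qb) ((HS hN hζ).coeff k) := rfl
  rw [h4, h3]
  exact lA_mem_gA _

end HSA

section Cusps

variable {N : ℕ} [NeZero N] {ζ : Qbˣ}

theorem coeff_of_prod {β : Type*} [Fintype β] (P : β → PowerSeries Qb) (k : ℕ) :
    ∃ F : PowerSeries Qb, (∏ u, (X - C (HahnSeries.ofPowerSeries ℤ Qb (P u)))).coeff k =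
      HahnSeries.ofPowerSeries ℤ Qb F ∧
      PowerSeries.constantCoeff F = (∏ u, (X - C (PowerSeries.constantCoeff (P u)))).coeff k := by
  refine ⟨(∏ u, (X - C (P u))).coeff k, ?_, ?_⟩
  · rw [← Polynomial.coeff_map, Polynomial.map_prod]
    simp only [Polynomial.map_sub, Polynomial.map_X, Polynomial.map_C]
  · rw [← Polynomial.coeff_map, Polynomial.map_prod]
    simp only [Polynomial.map_sub, Polynomial.map_X, Polynomial.map_C]

theorem order_ofPowerSeries_nonneg (F : PowerSeries Qb) :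
    0 ≤ (HahnSeries.ofPowerSeries ℤ Qb F).order := by
  by_cases h : HahnSeries.ofPowerSeries ℤ Qb F = 0
  · rw [h, HahnSeries.order_zero]
  · by_contra hlt
    rw [not_le] at hlt
    have h1 := HahnSeries.coeff_order_eq_zero.not.2 h
    rw [PowerSeries.coeff_coe, if_pos hlt] at h1
    exact h1 rfl

theorem coeff_zero_ofPowerSeries (F : PowerSeries Qb) :
    (HahnSeries.ofPowerSeries ℤ Qb F).coeff 0 = PowerSeries.constantCoeff F := by
  rw [PowerSeries.coeff_coe, if_neg (lt_irrefl _), Int.natAbs_zero,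
    PowerSeries.coeff_zero_eq_constantCoeff_apply]

theorem cInf_of_series {z : F0 Qb N} {F : PowerSeries Qb}
    (h : (z : LaurentSeries Qb) = HahnSeries.ofPowerSeries ℤ Qb F) :
    0 ≤ (cInf N).ord z ∧ evp (cInf N) z = PowerSeries.constantCoeff F := by
  have h1 : 0 ≤ (cInf N).ord z := by
    by_cases hz : z = 0
    · rw [hz, Place.ord_zero]
    · rw [cInf_ord hz, h]
      exact order_ofPowerSeries_nonneg F
  exact ⟨h1, by rw [evp_cInf h1, h, coeff_zero_ofPowerSeries]⟩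

theorem cInf_HS (hN : 1 < N) (hζ : ιC ζ = Complex.exp (2 * Real.pi * Complex.I / N)) (k : ℕ) :
    0 ≤ (cInf N).ord ((HS hN hζ).coeff k) ∧ evp (cInf N) ((HS hN hζ).coeff k) =
      (∏ u : (ZMod N)ˣ, (X - C (cK ζ (ZMod.val (u : ZMod N))))).coeff k := by
  have h := HS_map hN hζ
  obtain ⟨F, h1, h2⟩ := coeff_of_prod (fun u : (ZMod N)ˣ =>
    XS 1 (Xinf ζ (cK ζ (ZMod.val (u : ZMod N))) (ZMod.val (u : ZMod N)))) k
  have h3 := congrArg (fun P : Polynomial (LaurentSeries Qb) => P.coeff k) h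
  simp only [Polynomial.coeff_map] at h3
  have h4 : (((HS hN hζ).coeff k : F0 Qb N) : LaurentSeries Qb) =
    HahnSeries.ofPowerSeries ℤ Qb F := h3.trans h1
  obtain ⟨h5, h6⟩ := cInf_of_series h4
  refine ⟨h5, h6.trans (h2.trans ?_)⟩
  simp only [constantCoeff_XS, constantCoeff_Xinf]

theorem cZero_HS [Fact N.Prime] (hN : 1 < N)
    (hζ : ιC ζ = Complex.exp (2 * Real.pi * Complex.I / N)) (k : ℕ) :
    0 ≤ (cZero N).ord ((HS hN hζ).coeff k) ∧ evp (cZero N) ((HS hN hζ).coeff k) =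
      ((X : Polynomial Qb) ^ Fintype.card (ZMod N)ˣ).coeff k := by
  have h := HS_map_zero hN hζ (frB N) Fact.out (mul_one N).symm
  obtain ⟨F, h1, h2⟩ := coeff_of_prod (fun u : (ZMod N)ˣ =>
    ((XS N (Xzer N (ZMod.val (u : ZMod N)))).map (Int.castRingHom Qb))) k
  have h3 := congrArg (fun P : Polynomial (LaurentSeries Qb) => P.coeff k) h
  simp only [Polynomial.coeff_map] at h3
  have h4 : ((wN N ((HS hN hζ).coeff k) : F0 Qb N) : LaurentSeries Qb) =
    HahnSeries.ofPowerSeries ℤ Qb F := h3.trans h1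
  obtain ⟨h5, h6⟩ := cInf_of_series h4
  rw [← cZero_ord'] at h5
  refine ⟨h5, ?_⟩
  rw [evp_cZero' h5, h6, h2]
  have h7 : ∀ u : (ZMod N)ˣ, PowerSeries.constantCoeff
      ((XS N (Xzer N (ZMod.val (u : ZMod N)))).map (Int.castRingHom Qb)) = 0 := by
    intro u
    rw [← PowerSeries.coeff_zero_eq_constantCoeff_apply, PowerSeries.coeff_map,
      PowerSeries.coeff_zero_eq_constantCoeff_apply, constantCoeff_XS, constantCoeff_Xzer, map_zero]
  simp only [h7, map_zero, sub_zero]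
  rw [Finset.prod_const, Finset.card_univ]

end Cusps

end Fermat.Agent.MX
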