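import Fermat.Agent.MX.Dec
import Fermat.Agent.WP.HF

/-!
Regular functions from the polynomial of the normalised `x`-coordinates.
-/

set_option autoImplicit false
set_option linter.unusedSectionVars false

noncomputable section

namespace Fermat.Agent.MX

open AlgebraicCurve IntermediateField Polynomial
open Fermat.Agent.FunField Fermat.Agent.Flat Fermat.Agent.LG Fermat.Agent.ModFun
open Fermat.Agent.WP hiding X
open Fermat.Agent.Mzr Fermat.Agent.Tor
open Fermat.Agent.ESCore (ιC)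
open ModularCurve (qExpand jqModC)

/-- The field of algebraic numbers. -/
local notation "Qb" => AlgebraicClosure ℚ
/-- The absolute Galois group. -/
local notation "GQ" => (AlgebraicClosure ℚ ≃ₐ[ℚ] AlgebraicClosure ℚ)

theorem coeff_comp_mem {F : Type*} [Field F] (v : ValuationSubring F) {P Q : Polynomial F}
    (hP : ∀ k, P.coeff k ∈ v) (hQ : ∀ k, Q.coeff k ∈ v) (k : ℕ) : (P.comp Q).coeff k ∈ v := by
  have h1 : ∀ R : Polynomial F, (∀ k, R.coeff k ∈ v) ↔ R ∈ Polynomial.lifts v.subtype := by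
    intro R
    rw [Polynomial.lifts_iff_coeff_lifts]
    constructor
    · intro h k
      exact ⟨⟨_, h k⟩, rfl⟩
    · intro h k
      obtain ⟨a, ha⟩ := h k
      rw [← ha]
      exact a.2
  refine (h1 _).mpr ?_ k
  rw [Polynomial.comp_eq_sum_left, Polynomial.sum]
  refine sum_mem fun i _ => mul_mem ?_ (pow_mem ((h1 Q).mp hQ) i)
  exact ⟨C ⟨_, hP i⟩, by simp⟩

section Main

variable {N : ℕ} [hP : Fact N.Prime] [NeZero N] {ζ : Qbˣ}

/-- The number of factors. -/
local notation "nn" => Fintype.card (ZMod N)ˣ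

/-- The modified coefficients. -/
def zk (hN : 1 < N) (hζ : ιC ζ = Complex.exp (2 * Real.pi * Complex.I / N)) (k : ℕ) : F0 Qb N :=
  (1 - 1728 * (jF Qb N)⁻¹) ^ nn * (HS hN hζ).coeff k

theorem zk_mem {l : ℕ} {A : ValuationSubring Qb} (hl : l.Prime) (hA : A.LiesOverPrime l)
    (hlN : ¬ l ∣ N) (hN : 1 < N)
    (hζ : ιC ζ = Complex.exp (2 * Real.pi * Complex.I / N)) (k : ℕ) : zk hN hζ k ∈ W0 A N := by
  have h1 : (1728 : F0 Qb N) ∈ W0 A N := by
    have h2 := algebraMap_mem_W0 (A := A) (M := N) (c := 1728) (natCast_mem A 1728)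
    rwa [map_ofNat] at h2
  exact mul_mem (pow_mem (sub_mem (one_mem _) (mul_mem h1 (inv_jF_mem_W0 A N))) _)
    (HS_coeff_mem hl hA hlN hN hζ k)

theorem y_ne_zero : jF Qb N - 1728 ≠ 0 := by
  intro h
  have h1 := congrArg (algebraMap (F0 Qb N) (LaurentSeries Qb)) h
  rw [jF_sub_coe, map_zero] at h1
  exact ee6_ne_zero Qb h1

theorem one_sub_mem {v : Place Qb (F0 Qb N)} (hv : v.ord (jF Qb N) ≤ 0) :
    1 - 1728 * (jF Qb N)⁻¹ ∈ v.toValuationSubring := by
  have h1 : (1728 : F0 Qb N) ∈ v.toValuationSubring := by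
    have h2 := v.algebraMap_mem' (1728 : Qb)
    rwa [map_ofNat] at h2
  exact sub_mem (one_mem _) (mul_mem h1 (mem_of_ord_nonneg v (by rw [v.ord_inv]; omega)))

theorem zk_reg (hN : 1 < N) (hζ : ιC ζ = Complex.exp (2 * Real.pi * Complex.I / N)) (k : ℕ) :
    Reg Qb (jF Qb N)⁻¹ (zk hN hζ k) := by
  intro v hv
  rw [v.ord_inv] at hv
  have hv' : v.ord (jF Qb N) ≤ 0 := by omega
  rcases hv'.lt_or_eq with h1 | h1
  · refine ord_nonneg_of_mem v (mul_mem (pow_mem (one_sub_mem hv') _) ?_)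
    rcases eq_cusp h1 with rfl | rfl
    · exact mem_of_ord_nonneg _ (cInf_HS hN hζ k).1
    · exact mem_of_ord_nonneg _ (cZero_HS hN hζ k).1
  · have hy := y_ne_zero (N := N)
    have hj : jF Qb N ≠ 0 := jF_ne_zero
    set y := jF Qb N - 1728 with hydef
    have h12 : (12 : F0 Qb N) ≠ 0 := by
      intro h
      have h2 := congrArg (algebraMap (F0 Qb N) (LaurentSeries Qb)) h
      rw [map_ofNat, map_zero] at h2
      exact twelve_ne h2
    have e1 : zk hN hζ k = (12⁻¹ * (jF Qb N)⁻¹) ^ nn *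
        ((GF hN hζ).comp (C (12 * y) * X + C y)).coeff k := by
      have e2 : 1 - 1728 * (jF Qb N)⁻¹ = y * (jF Qb N)⁻¹ := by
        rw [hydef, sub_mul, mul_inv_cancel₀ hj]
      have e3 : (HS hN hζ).coeff k = (12 * y)⁻¹ ^ nn *
          ((GF hN hζ).comp (C (12 * y) * X + C y)).coeff k := by
        rw [HS, Tor.tw, Polynomial.coeff_C_mul]
      rw [zk, e3, e2, ← mul_assoc, ← mul_pow]
      congr 2
      field_simp
    rw [e1]
    have hm : ∀ n : ℕ, (n : F0 Qb N) ∈ v.toValuationSubring := fun n => natCast_mem _ n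
    have m12 : (12 : F0 Qb N) ∈ v.toValuationSubring := by exact_mod_cast hm 12
    have m12' : (12⁻¹ : F0 Qb N) ∈ v.toValuationSubring := by
      have h2 := v.algebraMap_mem' (12⁻¹ : Qb)
      rwa [map_inv₀, map_ofNat] at h2
    have hjm : jF Qb N ∈ v.toValuationSubring := mem_of_ord_nonneg v h1.ge
    have hym : y ∈ v.toValuationSubring := sub_mem hjm (by exact_mod_cast hm 1728)
    refine ord_nonneg_of_mem v (mul_mem (pow_mem (mul_mem m12'
      (mem_of_ord_nonneg v (by rw [v.ord_inv, h1]; norm_num))) _) ?_)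
    refine coeff_comp_mem _ (fun i => ?_) (fun i => ?_) k
    · refine mem_of_ord_nonneg v (ord_nonneg_of_holC h1.ge ?_)
      have h2 := GF_hasExp (ι := ιC) hN hζ i
      exact ⟨(GP N).coeff i, GP_coeff_mem hN i, GP_coeff_inv i, h2⟩
    · rw [Polynomial.coeff_add, Polynomial.coeff_C_mul, Polynomial.coeff_X, Polynomial.coeff_C]
      refine add_mem (mul_mem (mul_mem m12 hym) ?_) ?_
      · split_ifs
        exacts [one_mem _, zero_mem _]
      · split_ifs
        exacts [hym, zero_mem _]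

end Main

end Fermat.Agent.MX
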