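import Fermat.Agent.MX.Dec2

/-!
The decision by the normalised `x`-coordinate.
-/

set_option autoImplicit false
set_option linter.unusedSectionVars false

noncomputable section

namespace Fermat.Agent.MX

open AlgebraicCurve IntermediateField Polynomial
open Fermat.Agent.FunField Fermat.Agent.Flat Fermat.Agent.LG Fermat.Agent.ModFun
open Fermat.Agent.WP hiding X
open Fermat.Agent.Mzr Fermat.Agent.Tor
open Fermat.Agent.ESCore (ιC)
open ModularCurve (qExpand jqModC)

/-- The field of algebraic numbers. -/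
local notation "Qb" => AlgebraicClosure ℚ
/-- The absolute Galois group. -/
local notation "GQ" => (AlgebraicClosure ℚ ≃ₐ[ℚ] AlgebraicClosure ℚ)

section Poly

variable {K : Type*} [Field K] (A : ValuationSubring K)

theorem v_eval_sub {P R : Polynomial K} (h : ∀ k, A.valuation (P.coeff k - R.coeff k) < 1) {r : K}
    (hr : A.valuation r ≤ 1) : A.valuation (P.eval r - R.eval r) < 1 := by
  rw [← Polynomial.eval_sub, Polynomial.eval_eq_sum, Polynomial.sum]
  refine Valuation.map_sum_lt _ one_ne_zero fun i _ => ?_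
  rw [Polynomial.coeff_sub, map_mul, map_pow]
  exact (mul_le_mul' le_rfl (pow_le_one₀ zero_le hr)).trans_lt (by rw [mul_one]; exact h i)

theorem v_sub_of_mul {a b u : K} (hu : A.valuation (u - 1) < 1) (hb : A.valuation b ≤ 1)
    (h : A.valuation (u * a - b) < 1) : A.valuation (a - b) < 1 := by
  have hu1 : A.valuation u = 1 := by
    have := v_one_add A hu
    rwa [add_sub_cancel] at this
  have h1 : A.valuation (u * a) ≤ 1 := by
    have e : u * a = (u * a - b) + b := by ring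
    rw [e]
    exact (Valuation.map_add _ _ _).trans (max_le h.le hb)
  rw [map_mul, hu1, one_mul] at h1
  have e : a - b = (u * a - b) - (u - 1) * a := by ring
  rw [e]
  refine (Valuation.map_sub _ _ _).trans_lt (max_lt h ?_)
  rw [map_mul]
  exact (mul_le_mul' le_rfl h1).trans_lt (by rwa [mul_one])

end Poly

section Main

variable {N : ℕ} [hP : Fact N.Prime] [NeZero N] {ζ : Qbˣ} {l : ℕ} {A : ValuationSubring Qb}

/-- The number of factors. -/
local notation "nn" => Fintype.card (ZMod N)ˣ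

theorem ratl (v : Place Qb (F0 Qb N)) : Rational v := by
  obtain ⟨ζ, hζ⟩ := exists_zetaΩ ιC N
  exact (sep_jF hζ).rational v

/-- value at a point with `j(x) = j₀` -/
theorem evp_zk (hN : 1 < N) (hζ : ιC ζ = Complex.exp (2 * Real.pi * Complex.I / N)) (k : ℕ)
    {x : Place Qb (F0 Qb N)} {s : Qb} (hs : 0 ≤ x.ord (jF Qb N)⁻¹)
    (hs' : evp x (jF Qb N)⁻¹ = s) (hm : (HS hN hζ).coeff k ∈ x.toValuationSubring) :
    evp x (zk hN hζ k) = (1 - 1728 * s) ^ nn * evp x ((HS hN hζ).coeff k) := by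
  have hv := mem_of_ord_nonneg x hs
  have h1 : (1728 : F0 Qb N) = algebraMap Qb (F0 Qb N) 1728 := (map_ofNat _ _).symm
  have h2 : (1728 : F0 Qb N) ∈ x.toValuationSubring := by rw [h1]; exact x.algebraMap_mem' _
  have h3 : 1 - 1728 * (jF Qb N)⁻¹ ∈ x.toValuationSubring :=
    sub_mem (one_mem _) (mul_mem h2 hv)
  have hr := ratl x
  have h5 : evp x (1728 : F0 Qb N) = 1728 := by rw [h1, evp_algebraMap]
  rw [zk, evp_mul hr (pow_mem h3 _) hm, evp_pow hr h3, evp_sub hr (one_mem _) (mul_mem h2 hv),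
    evp_mul hr h2 hv, evp_one, h5, hs']

/-- data of the modified coefficients near a cusp -/
theorem near_coeff (hl : l.Prime) (hA : A.LiesOverPrime l) (hlN : ¬ l ∣ N) (hN : 1 < N)
    (hζ : ιC ζ = Complex.exp (2 * Real.pi * Complex.I / N))
    {x c : Place Qb (F0 Qb N)} {j0 : Qb} (hj0 : 1 < A.valuation j0)
    (hx : 0 < x.ord (jF Qb N - algebraMap Qb _ j0))
    {P R : Polynomial Qb} (hP : ∀ k, (HS hN hζ).coeff k ∈ x.toValuationSubring ∧
      evp x ((HS hN hζ).coeff k) = P.coeff k)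
    (hc : c.ord (jF Qb N) < 0) (hR : ∀ k, 0 ≤ c.ord ((HS hN hζ).coeff k) ∧
      evp c ((HS hN hζ).coeff k) = R.coeff k) (hRA : ∀ k, A.valuation (R.coeff k) ≤ 1)
    (hn : Near A N (jF Qb N)⁻¹ x c) (k : ℕ) : A.valuation (P.coeff k - R.coeff k) < 1 := by
  have hj : j0 ≠ 0 := by
    rintro rfl
    rw [map_zero] at hj0
    exact absurd hj0 (not_lt.mpr zero_le)
  have htr : Transcendental Qb (jF Qb N) := by
    obtain ⟨ζ, hζ⟩ := exists_zetaΩ ιC N
    exact (sep_jF hζ).trans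
  obtain ⟨h0, h1⟩ := ord_inv_sub htr hj hx
  have h2 := hn (zk hN hζ k) (zk_mem hl hA hlN hN hζ k) (zk_reg hN hζ k)
  have hc0 : 0 < c.ord (jF Qb N)⁻¹ := by rw [c.ord_inv]; omega
  have e3 : evp c (jF Qb N)⁻¹ = 0 := evp_t (c := 0) (by rw [map_zero, sub_zero]; exact hc0)
  have e4 : evp x (jF Qb N)⁻¹ = j0⁻¹ := evp_t h1
  rw [evp_zk hN hζ k (by rw [x.ord_inv, h0]; norm_num) e4 (hP k).1,
    evp_zk hN hζ k hc0.le e3 (mem_of_ord_nonneg _ (hR k).1), (hP k).2, (hR k).2, mul_zero, sub_zero,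
    one_pow, one_mul] at h2
  refine v_sub_of_mul A ?_ (hRA k) h2
  refine v_pow_sub_one A ?_ _
  have h5 : A.valuation (1728 : Qb) ≤ 1 := by
    rw [A.valuation_le_one_iff]
    exact_mod_cast natCast_mem A 1728
  have e : (1 - 1728 * j0⁻¹ : Qb) - 1 = -(1728 * j0⁻¹) := by ring
  rw [e, Valuation.map_neg, map_mul, map_inv₀]
  exact (mul_le_mul' h5 le_rfl).trans_lt (by rw [one_mul]; exact inv_lt_one_of_one_lt₀ hj0)

theorem cK_polynomial_mem (hl : l.Prime) (hA : A.LiesOverPrime l) (hlN : ¬ l ∣ N) (hN : 1 < N)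
    (hζ : ιC ζ = Complex.exp (2 * Real.pi * Complex.I / N)) (k : ℕ) :
    A.valuation ((∏ u : (ZMod N)ˣ, (X - C (cK ζ (ZMod.val (u : ZMod N))))).coeff k) ≤ 1 := by
  rw [A.valuation_le_one_iff]
  have h : ∀ u : (ZMod N)ˣ, cK ζ (ZMod.val (u : ZMod N)) ∈ A := fun u =>
    (A.valuation_le_one_iff _).mp (v_cK hl hA hlN hζ (val_pos hN u) (ZMod.val_lt _)).le
  have h1 : (∏ u : (ZMod N)ˣ, (X - C (cK ζ (ZMod.val (u : ZMod N))))) =
      (∏ u : (ZMod N)ˣ, (X - C (⟨_, h u⟩ : A))).map A.subtype := by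
    rw [Polynomial.map_prod]
    refine Finset.prod_congr rfl fun u _ => ?_
    rw [Polynomial.map_sub, Polynomial.map_X, Polynomial.map_C]
    rfl
  rw [h1, Polynomial.coeff_map]
  exact Subtype.prop _

/-- **Decision near `0`.** -/
theorem near_cZero (hl : l.Prime) (hA : A.LiesOverPrime l) (hlN : ¬ l ∣ N) (hN : 1 < N)
    (hζ : ιC ζ = Complex.exp (2 * Real.pi * Complex.I / N))
    {x : Place Qb (F0 Qb N)} {j0 : Qb} (hj0 : 1 < A.valuation j0)
    (hx : 0 < x.ord (jF Qb N - algebraMap Qb _ j0))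
    {P : Polynomial Qb} (hP : ∀ k, (HS hN hζ).coeff k ∈ x.toValuationSubring ∧
      evp x ((HS hN hζ).coeff k) = P.coeff k)
    (hn : Near A N (jF Qb N)⁻¹ x (cZero N)) {r : Qb} (hr : A.valuation r ≤ 1)
    (hPr : P.eval r = 0) : A.valuation r < 1 := by
  have h1 := near_coeff hl hA hlN hN hζ hj0 hx hP (c := cZero N) (by
    rw [cZero_ord_jF]
    have := (Fact.out : N.Prime).pos
    omega) (R := X ^ nn) (cZero_HS hN hζ) (fun k => by
      rw [Polynomial.coeff_X_pow]
      split_ifs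
      · rw [map_one]
      · rw [map_zero]; exact zero_le) hn
  have h2 := v_eval_sub A h1 hr
  rw [hPr, Polynomial.eval_pow, Polynomial.eval_X, zero_sub, Valuation.map_neg, map_pow] at h2
  by_contra h3
  rw [not_lt] at h3
  exact absurd h2 (not_lt.mpr (one_le_pow₀ h3))

/-- **Decision near `∞`.** -/
theorem near_cInf (hl : l.Prime) (hA : A.LiesOverPrime l) (hlN : ¬ l ∣ N) (hN : 1 < N)
    (hζ : ιC ζ = Complex.exp (2 * Real.pi * Complex.I / N))
    {x : Place Qb (F0 Qb N)} {j0 : Qb} (hj0 : 1 < A.valuation j0)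
    (hx : 0 < x.ord (jF Qb N - algebraMap Qb _ j0))
    {P : Polynomial Qb} (hP : ∀ k, (HS hN hζ).coeff k ∈ x.toValuationSubring ∧
      evp x ((HS hN hζ).coeff k) = P.coeff k)
    (hn : Near A N (jF Qb N)⁻¹ x (cInf N)) {r : Qb} (hr : A.valuation r ≤ 1)
    (hPr : P.eval r = 0) : A.valuation r = 1 ∧
      ∃ u : (ZMod N)ˣ, A.valuation (r - cK ζ (ZMod.val (u : ZMod N))) < 1 := by
  have h1 := near_coeff hl hA hlN hN hζ hj0 hx hP (c := cInf N) (by
    rw [cInf_ord_jF]; norm_num) (cInf_HS hN hζ) (cK_polynomial_mem hl hA hlN hN hζ) hn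
  have h2 := v_eval_sub A h1 hr
  rw [hPr, Polynomial.eval_prod, zero_sub, Valuation.map_neg, map_prod] at h2
  have h3 : ∃ u : (ZMod N)ˣ, A.valuation (r - cK ζ (ZMod.val (u : ZMod N))) < 1 := by
    by_contra hcon
    push Not at hcon
    refine absurd h2 (not_lt.mpr ?_)
    refine Finset.one_le_prod' fun u _ => ?_
    rw [Polynomial.eval_sub, Polynomial.eval_X, Polynomial.eval_C]
    exact hcon u
  refine ⟨?_, h3⟩
  obtain ⟨u, hu⟩ := h3
  have hc := v_cK hl hA hlN hζ (val_pos hN u) (ZMod.val_lt (u : ZMod N))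
  have e : r = cK ζ (ZMod.val (u : ZMod N)) + (r - cK ζ (ZMod.val (u : ZMod N))) := by ring
  rw [e, Valuation.map_add_eq_of_lt_left _ (by rwa [hc]), hc]

end Main

end Fermat.Agent.MX
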